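import Mathlib

/-!
# S14/TR, task A1: an unramified prime sees `p ∣ ord_v α` when `α = β ^ p` upstairs
-/

set_option autoImplicit false

namespace Fermat.Agent.S14.TR

open NumberField IsDedekindDomain

/-- If `w ∣ v` has ramification index one and `α = β ^ p` in `F`, then `v(α)` is a `p`-th power of
a value of `v`.
Sketch: `HeightOneSpectrum.valuation_liesOver F v w α : v(α) ^ e' = w(α)`, so `v(α) = w(β) ^ p`;
`w(β) = exp k` for some `k : ℤ` (`β ≠ 0`); take `y = π ^ (-k)` (zpow) for a uniformizer `π` of `v`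
(`HeightOneSpectrum.valuation_exists_uniformizer`). -/
theorem exists_val_eq_pow_of_ramificationIdx_eq_one
    {K F : Type} [Field K] [NumberField K] [Field F] [NumberField F] [Algebra K F]
    (v : HeightOneSpectrum (𝓞 K)) (w : HeightOneSpectrum (𝓞 F)) [w.asIdeal.LiesOver v.asIdeal]
    (he : v.asIdeal.ramificationIdx' w.asIdeal = 1)
    (p : ℕ) (α : K) (β : F) (hβ : β ≠ 0) (hαβ : algebraMap K F α = β ^ p) :
    ∃ y : K, v.valuation K α = v.valuation K y ^ p := by
  have h1 := HeightOneSpectrum.valuation_liesOver F v w α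
  rw [he, pow_one, hαβ, map_pow] at h1
  have hw : w.valuation F β ≠ 0 := (Valuation.ne_zero_iff _).2 hβ
  obtain ⟨π, hπ⟩ := v.valuation_exists_uniformizer K
  obtain ⟨k, hk⟩ : ∃ k : ℤ, w.valuation F β = WithZero.exp k :=
    ⟨WithZero.log (w.valuation F β), (WithZero.exp_log hw).symm⟩
  refine ⟨π ^ (-k), ?_⟩
  rw [h1, hk, map_zpow₀, hπ, ← WithZero.exp_zsmul]
  simp

end Fermat.Agent.S14.TR
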