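import Mathlib

/-!
# S14/TR, task A3: trivial inertia group ⇒ ramification index one
-/

set_option autoImplicit false

namespace Fermat.Agent.S14.TR

open NumberField IsDedekindDomain

/-- `F/K` Galois, `w ∣ v` with trivial inertia group ⇒ `e(w|v) = 1`.

Sketch: as at the end of `Fermat.Agent.S13.eq_top_of_inertia_le` (file `Fermat/Agent/S13/Global.lean`):
`let _ : MulSemiringAction Gal(F/K) (𝓞 F) := IsIntegralClosure.MulSemiringAction (𝓞 K) K F (𝓞 F)`,
`IsGaloisGroup.of_isFractionRing`, `Ideal.ramificationIdxIn_eq_ramificationIdx`,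
`Ideal.card_inertia_eq_ramificationIdxIn`, `Subgroup.card_eq_one`, `algebraMap_galRestrict_apply`;
then convert `ramificationIdx` to `ramificationIdx'`. -/
theorem ramificationIdx_eq_one_of_trivial_inertia
    {K F : Type} [Field K] [NumberField K] [Field F] [NumberField F] [Algebra K F] [IsGalois K F]
    (v : HeightOneSpectrum (𝓞 K)) (w : HeightOneSpectrum (𝓞 F)) [w.asIdeal.LiesOver v.asIdeal]
    (hin : ∀ τ : F ≃ₐ[K] F,
      (∀ x : 𝓞 F, ∃ d : 𝓞 F, d ∈ w.asIdeal ∧ (d : F) = τ (x : F) - x) → τ = 1) :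
    v.asIdeal.ramificationIdx' w.asIdeal = 1 := by
  let _ : MulSemiringAction Gal(F/K) (𝓞 F) := IsIntegralClosure.MulSemiringAction (𝓞 K) K F (𝓞 F)
  have := IsGaloisGroup.of_isFractionRing Gal(F/K) (𝓞 K) (𝓞 F) K F
  have : v.asIdeal.IsPrime := v.isPrime
  have : w.asIdeal.IsPrime := w.isPrime
  have : v.asIdeal.IsMaximal := v.isMaximal
  rw [Ideal.ramificationIdx'_eq_ramificationIdx v.asIdeal w.asIdeal v.ne_bot,
    ← Ideal.ramificationIdxIn_eq_ramificationIdx v.asIdeal w.asIdeal Gal(F/K),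
    ← Ideal.card_inertia_eq_ramificationIdxIn (G := Gal(F/K)) v.asIdeal w.asIdeal,
    Subgroup.card_eq_one, Subgroup.eq_bot_iff_forall]
  intro τ hτ
  apply hin τ
  intro x
  refine ⟨τ • x - x, hτ x, ?_⟩
  have h3 : algebraMap (𝓞 F) F (τ • x) = τ (algebraMap (𝓞 F) F x) :=
    algebraMap_galRestrict_apply (𝓞 K) τ x
  show algebraMap (𝓞 F) F (τ • x - x) = _
  rw [map_sub, h3]

end Fermat.Agent.S14.TR
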