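import Mathlib
import Fermat.Prelude.Def_FLTPrelim_Ramification

/-!
# S14/TR, task B1: every prime of a number field `F ⊆ ℚ̄` is cut out by a valuation subring of `ℚ̄`
-/

set_option autoImplicit false
set_option linter.style.haveILetI false

namespace Fermat.Agent.S14.TR

open NumberField IsDedekindDomain

local notation "Lb" => AlgebraicClosure ℚ

namespace B1

theorem exists_prime_mem {R : Type*} [CommRing R] (P : Ideal R) [hP : P.IsPrime] (n : ℕ)
    (hn : n ≠ 0) (h : (n : R) ∈ P) : ∃ ℓ : ℕ, ℓ.Prime ∧ (ℓ : R) ∈ P := by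
  induction n using Nat.strong_induction_on with
  | _ n ih =>
    by_cases h1 : n = 1
    · subst h1
      exfalso
      apply hP.ne_top
      rw [Ideal.eq_top_iff_one]
      simpa using h
    · obtain ⟨m, hm⟩ := Nat.minFac_dvd n
      have hl := Nat.minFac_prime h1
      have hm0 : m ≠ 0 := by
        rintro rfl
        exact hn (by rw [hm, mul_zero])
      rw [hm, Nat.cast_mul] at h
      rcases hP.mem_or_mem h with h2 | h2
      · exact ⟨_, hl, h2⟩
      · refine ih m ?_ hm0 h2
        conv_rhs => rw [hm]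
        exact lt_mul_of_one_lt_left (Nat.pos_of_ne_zero hm0) hl.one_lt

end B1

/-- Sketch: as in `Fermat.Agent.S54.exists_liesOverPrime` (`Fermat/Agent/S54/Frob.lean`):
`R := Localization.AtPrime w.asIdeal`, `f : R →+* Lb` the lift of `𝓞 F → F → Lb`,
`IsLocalRing.exists_factor_valuationRing f` gives `A` containing the image of `f` with a local
homomorphism `R → A`.  `x ∈ w` ⇒ `x` non-unit of `R` ⇒ image is a non-unit of `A`;
`x ∉ w` ⇒ `x` unit of `R` ⇒ image is a unit of `A`.
The rational prime `ℓ`: `w.asIdeal.under ℤ` is a nonzero prime ideal of `ℤ`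
(or: `Ideal.absNorm w.asIdeal ∈ w.asIdeal` and factor it). -/
theorem exists_valuationSubring_of_prime
    {F : Type} [Field F] [NumberField F] [Algebra F Lb] (w : HeightOneSpectrum (𝓞 F)) :
    ∃ (A : ValuationSubring Lb) (ℓ : ℕ), ℓ.Prime ∧ A.LiesOverPrime ℓ ∧
      ∀ x : 𝓞 F, x ∈ w.asIdeal ↔ algebraMap F Lb (x : F) ∈ A.nonunits := by
  haveI hprime : w.asIdeal.IsPrime := w.isPrime
  let R := Localization.AtPrime w.asIdeal
  let g : 𝓞 F →+* Lb := (algebraMap F Lb).comp (algebraMap (𝓞 F) F)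
  have hg : ∀ x : 𝓞 F, g x = algebraMap F Lb (x : F) := fun x => rfl
  let f : R →+* Lb := IsLocalization.lift (M := w.asIdeal.primeCompl) (g := g) (by
      intro y
      apply IsUnit.mk0
      have hy : (y : 𝓞 F) ≠ 0 := by
        intro h
        exact y.2 (by rw [h]; exact Ideal.zero_mem _)
      rw [hg]
      simpa using hy)
  have hf : ∀ x : 𝓞 F, f (algebraMap (𝓞 F) R x) = g x := fun x => by simp [f]
  obtain ⟨A, hA, hloc⟩ := IsLocalRing.exists_factor_valuationRing f
  have key : ∀ x : 𝓞 F, x ∈ w.asIdeal ↔ algebraMap F Lb (x : F) ∈ A.nonunits := by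
    intro x
    have hmem : g x ∈ A := by rw [← hf]; exact hA _
    have heq : (f.codRestrict A.toSubring hA) (algebraMap (𝓞 F) R x) = ⟨g x, hmem⟩ :=
      Subtype.ext (hf x)
    rw [← hg, ValuationSubring.mem_nonunits_iff_exists_mem_maximalIdeal]
    constructor
    · intro hx
      refine ⟨hmem, ?_⟩
      rw [IsLocalRing.mem_maximalIdeal, mem_nonunits_iff]
      intro hu
      have h1 : IsUnit ((f.codRestrict A.toSubring hA) (algebraMap (𝓞 F) R x)) := by
        rw [heq]; exact hu
      have h2 := hloc.map_nonunit _ h1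
      exact (IsLocalization.AtPrime.isUnit_to_map_iff R w.asIdeal x).mp h2 hx
    · rintro ⟨ha, hx⟩
      by_contra hxw
      rw [IsLocalRing.mem_maximalIdeal, mem_nonunits_iff] at hx
      apply hx
      have h2 : IsUnit (algebraMap (𝓞 F) R x) :=
        (IsLocalization.AtPrime.isUnit_to_map_iff R w.asIdeal x).mpr hxw
      have h3 := h2.map (f.codRestrict A.toSubring hA)
      rw [heq] at h3
      exact h3
  have hn0 : Ideal.absNorm w.asIdeal ≠ 0 := by
    rw [Ne, Ideal.absNorm_eq_zero_iff]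
    exact w.ne_bot
  obtain ⟨ℓ, hℓ, hℓw⟩ := B1.exists_prime_mem w.asIdeal _ hn0 (Ideal.absNorm_mem w.asIdeal)
  refine ⟨A, ℓ, hℓ, ?_, key⟩
  have h1 := (key (ℓ : 𝓞 F)).1 hℓw
  show (ℓ : Lb) ∈ A.nonunits
  simpa using h1

end Fermat.Agent.S14.TR
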