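import Mathlib

/-!
# S14/TR: the fields `K0 ζ = ℚ(ζ) ⊆ F1 ζ β = ℚ(ζ)(β) ⊆ ℚ̄` and the subgroup `HH ζ β` fixing `ζ, β`
(definitions only; facts are in `FSetup.lean`)
-/

set_option autoImplicit false

namespace Fermat.Agent.S14.TR

local notation "Lb" => AlgebraicClosure ℚ
local notation "Gb" => (AlgebraicClosure ℚ ≃ₐ[ℚ] AlgebraicClosure ℚ)

/-- `ℚ(ζ)` inside `ℚ̄`. -/
noncomputable abbrev K0 (ζ : Lb) : IntermediateField ℚ Lb := IntermediateField.adjoin ℚ {ζ}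

/-- `ℚ(ζ)(β)` inside `ℚ̄`, as an extension of `K0 ζ`. -/
noncomputable abbrev F1 (ζ β : Lb) : IntermediateField (K0 ζ) Lb :=
  IntermediateField.adjoin (K0 ζ) {β}

/-- the subgroup of `Gal(ℚ̄/ℚ)` fixing `ζ` and `β`. -/
def HH (ζ β : Lb) : Subgroup Gb where
  carrier := {σ | σ ζ = ζ ∧ σ β = β}
  one_mem' := ⟨rfl, rfl⟩
  mul_mem' := by
    rintro a b ⟨ha1, ha2⟩ ⟨hb1, hb2⟩
    exact ⟨by rw [AlgEquiv.mul_apply, hb1, ha1], by rw [AlgEquiv.mul_apply, hb2, ha2]⟩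
  inv_mem' := by
    rintro a ⟨ha1, ha2⟩
    refine ⟨?_, ?_⟩
    · conv_lhs => rw [← ha1]
      exact AlgEquiv.symm_apply_apply a ζ
    · conv_lhs => rw [← ha2]
      exact AlgEquiv.symm_apply_apply a β

theorem mem_HH {ζ β : Lb} {σ : Gb} : σ ∈ HH ζ β ↔ σ ζ = ζ ∧ σ β = β := Iff.rfl

theorem isIntegral_Lb (x : Lb) : IsIntegral ℚ x :=
  ((AlgebraicClosure.isAlgebraic ℚ).isAlgebraic x).isIntegral

instance instNumberFieldK0 (ζ : Lb) : NumberField (K0 ζ) where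
  to_charZero := inferInstance
  to_finiteDimensional := IntermediateField.adjoin.finiteDimensional (isIntegral_Lb ζ)

instance instFiniteDimensionalF1 (ζ β : Lb) : FiniteDimensional (K0 ζ) (F1 ζ β) :=
  IntermediateField.adjoin.finiteDimensional ((isIntegral_Lb β).tower_top)

instance instNumberFieldF1 (ζ β : Lb) : NumberField (F1 ζ β) where
  to_charZero := inferInstance
  to_finiteDimensional := Module.Finite.trans (K0 ζ) (F1 ζ β)

end Fermat.Agent.S14.TR
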