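import Mathlib
import Fermat.Agent.S14.TR.FDefs

/-!
# S14/TR, task F1: Galois-theoretic facts on `K0 ζ ⊆ F1 ζ β ⊆ ℚ̄` and `HH ζ β`
-/

set_option autoImplicit false

namespace Fermat.Agent.S14.TR

local notation "Lb" => AlgebraicClosure ℚ
local notation "Gb" => (AlgebraicClosure ℚ ≃ₐ[ℚ] AlgebraicClosure ℚ)

namespace FSetup

theorem isAlgebraic_Lb : Algebra.IsAlgebraic ℚ Lb := AlgebraicClosure.isAlgebraic ℚ

theorem isAlgClosure_Lb : IsAlgClosure ℚ Lb := ⟨inferInstance, isAlgebraic_Lb⟩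

theorem isGalois_Lb : IsGalois ℚ Lb := by
  have := isAlgClosure_Lb
  exact {}

attribute [local instance] isAlgebraic_Lb isAlgClosure_Lb isGalois_Lb

theorem fixed_of_mem_K0 {ζ x : Lb} (hx : x ∈ K0 ζ) (σ : Gb) (hσ : σ ζ = ζ) : σ x = x := by
  have h := (IntermediateField.forall_mem_adjoin_smul_eq_self_iff ℚ (S := {ζ}) σ).mpr
    (by simpa using hσ)
  exact h x hx

end FSetup

attribute [local instance] FSetup.isAlgebraic_Lb FSetup.isAlgClosure_Lb FSetup.isGalois_Lb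

/-- Galois correspondence (`InfiniteGalois.fixedField_fixingSubgroup`, `ℚ̄/ℚ` is Galois). -/
theorem mem_K0_iff (ζ x : Lb) : x ∈ K0 ζ ↔ ∀ σ : Gb, σ ζ = ζ → σ x = x := by
  constructor
  · intro hx σ hσ
    exact FSetup.fixed_of_mem_K0 hx σ hσ
  · intro h
    rw [← InfiniteGalois.fixedField_fixingSubgroup (K0 ζ), IntermediateField.mem_fixedField_iff]
    intro σ hσ
    apply h
    exact hσ ⟨ζ, IntermediateField.mem_adjoin_simple_self ℚ ζ⟩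

/-- `IsPrimitiveRoot.intermediateField_adjoin_isCyclotomicExtension`. -/
theorem isCyclotomicExtension_K0 {p : ℕ} [NeZero p] {ζ : Lb} (hζ : IsPrimitiveRoot ζ p) :
    IsCyclotomicExtension {p} ℚ (K0 ζ) :=
  hζ.intermediateField_adjoin_isCyclotomicExtension ℚ

/-- `K0 ζ / ℚ` is normal (cyclotomic), so automorphisms lift
(`AlgEquiv.restrictNormalHom_surjective`, `AlgEquiv.restrictNormal_commutes`). -/
theorem exists_lift_K0 {p : ℕ} [NeZero p] {ζ : Lb} (hζ : IsPrimitiveRoot ζ p)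
    (σ : K0 ζ ≃ₐ[ℚ] K0 ζ) : ∃ δ : Gb, ∀ x : K0 ζ, δ (x : Lb) = ((σ x : K0 ζ) : Lb) := by
  have := isCyclotomicExtension_K0 hζ
  have : IsGalois ℚ (K0 ζ) := IsCyclotomicExtension.isGalois {p} ℚ (K0 ζ)
  obtain ⟨δ, hδ⟩ := AlgEquiv.restrictNormalHom_surjective (F := ℚ) (K₁ := K0 ζ) Lb σ
  refine ⟨δ, fun x => ?_⟩
  rw [← hδ]
  exact (AlgEquiv.restrictNormal_commutes δ (K0 ζ) x).symm

/-- Galois correspondence over `K0 ζ`: an element `σ'` of `(F1 ζ β).fixingSubgroup`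
(`⊆ Lb ≃ₐ[K0 ζ] Lb`) gives `σ'.restrictScalars ℚ ∈ HH ζ β`. -/
theorem mem_F1_of_fixed (ζ β x : Lb) (hx : ∀ σ ∈ HH ζ β, σ x = x) : x ∈ F1 ζ β := by
  rw [← InfiniteGalois.fixedField_fixingSubgroup (F1 ζ β), IntermediateField.mem_fixedField_iff]
  intro σ hσ
  have h1 : (σ.restrictScalars ℚ) ∈ HH ζ β := by
    refine ⟨?_, ?_⟩
    · exact σ.commutes ⟨ζ, IntermediateField.mem_adjoin_simple_self ℚ ζ⟩
    · exact hσ ⟨β, IntermediateField.mem_adjoin_simple_self _ β⟩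
  exact hx _ h1

/-- Normality: `IntermediateField.normal_iff_forall_map_le'` + `IntermediateField.adjoin_map`:
a `K0 ζ`-automorphism `σ` of `Lb` sends `β` to `ζ ^ k * β ∈ F1 ζ β`. Separable: char. 0. -/
theorem isGalois_F1 (ζ β : Lb) (hfix : ∀ σ : Gb, σ ζ = ζ → ∃ k : ℕ, σ β = ζ ^ k * β) :
    IsGalois (K0 ζ) (F1 ζ β) := by
  have hn : Normal (K0 ζ) (F1 ζ β) := by
    rw [IntermediateField.normal_iff_forall_map_le' (L := Lb)]
    intro σ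
    rw [IntermediateField.adjoin_map, IntermediateField.adjoin_le_iff]
    rintro _ ⟨b, hb, rfl⟩
    rw [Set.mem_singleton_iff] at hb
    subst hb
    obtain ⟨k, hk⟩ := hfix (σ.restrictScalars ℚ)
      (σ.commutes ⟨ζ, IntermediateField.mem_adjoin_simple_self ℚ ζ⟩)
    have h2 : σ b = ζ ^ k * b := hk
    show σ b ∈ F1 ζ b
    rw [h2]
    refine mul_mem (pow_mem ?_ k) (IntermediateField.mem_adjoin_simple_self _ b)
    exact (F1 ζ b).algebraMap_mem ⟨ζ, IntermediateField.mem_adjoin_simple_self ℚ ζ⟩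
  exact { }

/-- lift `τ` to `Lb ≃ₐ[K0 ζ] Lb` (`AlgEquiv.restrictNormalHom_surjective`), then restrict scalars. -/
theorem exists_lift_F1 (ζ β : Lb) [Normal (K0 ζ) (F1 ζ β)] (τ : F1 ζ β ≃ₐ[K0 ζ] F1 ζ β) :
    ∃ τ' : Gb, τ' ζ = ζ ∧ ∀ x : F1 ζ β, τ' (x : Lb) = ((τ x : F1 ζ β) : Lb) := by
  obtain ⟨δ, hδ⟩ := AlgEquiv.restrictNormalHom_surjective (F := K0 ζ) (K₁ := F1 ζ β) Lb τ
  refine ⟨δ.restrictScalars ℚ, ?_, fun x => ?_⟩
  · exact δ.commutes ⟨ζ, IntermediateField.mem_adjoin_simple_self ℚ ζ⟩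
  · rw [← hδ]
    exact (AlgEquiv.restrictNormal_commutes δ (F1 ζ β) x).symm

theorem beta_mem_F1 (ζ β : Lb) : β ∈ F1 ζ β :=
  IntermediateField.mem_adjoin_simple_self _ β

/-- an automorphism of `F1 ζ β = K0 ζ ⟮β⟯` fixing `β` is trivial. -/
theorem eq_one_of_apply_beta (ζ β : Lb) (τ : F1 ζ β ≃ₐ[K0 ζ] F1 ζ β)
    (h : ((τ ⟨β, beta_mem_F1 ζ β⟩ : F1 ζ β) : Lb) = β) : τ = 1 := by
  have hint : IsIntegral (K0 ζ) β := (isIntegral_Lb β).tower_top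
  have h1 : (τ : F1 ζ β →ₐ[K0 ζ] F1 ζ β) = AlgHom.id (K0 ζ) (F1 ζ β) := by
    apply (IntermediateField.adjoin.powerBasis hint).algHom_ext
    apply Subtype.ext
    exact h
  ext x
  have := congrArg (fun f : F1 ζ β →ₐ[K0 ζ] F1 ζ β => ((f x : F1 ζ β) : Lb)) h1
  exact this

/-- intersection of two open (hence closed) stabilizers: `stabilizer_isOpen_of_isIntegral`. -/
theorem HH_isClosed (ζ β : Lb) : IsClosed (HH ζ β : Set Gb) := by
  have h1 : IsClosed (MulAction.stabilizer Gb ζ : Set Gb) :=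
    Subgroup.isClosed_of_isOpen _ (stabilizer_isOpen_of_isIntegral ζ)
  have h2 : IsClosed (MulAction.stabilizer Gb β : Set Gb) :=
    Subgroup.isClosed_of_isOpen _ (stabilizer_isOpen_of_isIntegral β)
  have h3 : (HH ζ β : Set Gb) =
      (MulAction.stabilizer Gb ζ : Set Gb) ∩ (MulAction.stabilizer Gb β : Set Gb) := by
    ext σ
    simp [mem_HH, MulAction.mem_stabilizer_iff]
  rw [h3]
  exact h1.inter h2

/-- For `σ ∈ HH`, `δ : Gb`: `δ⁻¹ ζ = ζ ^ s` (`IsPrimitiveRoot.eq_pow_of_pow_eq_one`), fixed by `σ`;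
`δ⁻¹ β = (δ⁻¹ β / β ^ s²) * β ^ s²`, both factors fixed by `σ` (`htype` for `δ⁻¹`). -/
theorem HH_normal {p : ℕ} [NeZero p] {ζ β : Lb} (hζ : IsPrimitiveRoot ζ p) (hβ : β ≠ 0)
    (htype : ∀ (δ : Gb) (t : ℕ), δ ζ = ζ ^ t → ∀ σ : Gb, σ ζ = ζ →
      σ (δ β / β ^ (t ^ 2)) = δ β / β ^ (t ^ 2)) :
    (HH ζ β).Normal := by
  constructor
  intro σ hσ δ
  obtain ⟨hσ1, hσ2⟩ := hσ
  -- `δ⁻¹ ζ = ζ ^ s`
  have hpow : (δ⁻¹ ζ) ^ p = 1 := by
    rw [← map_pow, hζ.pow_eq_one, map_one]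
  obtain ⟨s, _, hs⟩ := hζ.eq_pow_of_pow_eq_one hpow
  have hs' : δ⁻¹ ζ = ζ ^ s := hs.symm
  have h1 : σ (δ⁻¹ ζ) = δ⁻¹ ζ := by rw [hs', map_pow, hσ1]
  have h2 : σ (δ⁻¹ β) = δ⁻¹ β := by
    have h3 := htype δ⁻¹ s hs' σ hσ1
    have h4 : δ⁻¹ β = (δ⁻¹ β / β ^ (s ^ 2)) * β ^ (s ^ 2) := by
      field_simp
    rw [h4, map_mul, h3, map_pow, hσ2]
  refine ⟨?_, ?_⟩
  · rw [AlgEquiv.mul_apply, AlgEquiv.mul_apply, h1]
    exact AlgEquiv.apply_symm_apply δ ζ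
  · rw [AlgEquiv.mul_apply, AlgEquiv.mul_apply, h2]
    exact AlgEquiv.apply_symm_apply δ β

end Fermat.Agent.S14.TR
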