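import Mathlib
import Fermat.Prelude.Def_FLTPrelim_Ramification
import Fermat.Agent.S13.Global
import Fermat.Agent.S14.TR.FSetup
import Fermat.Agent.S14.TR.A1Ram
import Fermat.Agent.S14.TR.A3Inertia
import Fermat.Agent.S14.TR.B1Exists

/-!
# S14/TR, task F2: (H1) at the primes `v ∤ p`
-/

set_option autoImplicit false

namespace Fermat.Agent.S14.TR

open NumberField IsDedekindDomain

local notation "Lb" => AlgebraicClosure ℚ
local notation "Gb" => (AlgebraicClosure ℚ ≃ₐ[ℚ] AlgebraicClosure ℚ)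

/-- Sketch.  `F := F1 ζ β` is Galois over `K := K0 ζ` (`isGalois_F1`).  Choose a prime `w` of `𝓞 F` over
`v` (`Ideal.exists_ideal_liesOver_maximal_of_isIntegral` or similar; `w ≠ ⊥` since it lies over
`v ≠ ⊥`).
`exists_valuationSubring_of_prime w` gives `A`, `ℓ`.  `ℓ ≠ p`, otherwise `(p : 𝓞 F) ∈ w`, so `p ∈ v`.
By `hunr`, `A.inertiaSubgroupIn ℚ ≤ HH ζ β`.
Apply `ramificationIdx_eq_one_of_trivial_inertia v w`: let `τ` act trivially on `𝓞 F / w`; lift it to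
`τ' : Gb` (`exists_lift_F1`); then `τ' ∈ HH ζ β` by
`Fermat.Agent.S13.global_mem_of_inertia_le (HH ζ β) HH_normal HH_isClosed A hℓ hA _ τ'`
(an `HH`-fixed `x : ℤ̄` lies in `F` by `mem_F1_of_fixed`, is integral, so is some `x' : 𝓞 F`;
`τ' x - x = τ x' - x' ∈ w`, i.e. in `A.nonunits`, i.e. in `centre A` by `Fermat.Agent.S54.mem_centre_iff`).
So `τ β = β` and `τ = 1` (`eq_one_of_apply_beta`).
Conclude with `exists_val_eq_pow_of_ramificationIdx_eq_one v w he p α ⟨β, _⟩`. -/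
theorem H1_away {p : ℕ} [Fact p.Prime] (ζ β : Lb) (hζ : IsPrimitiveRoot ζ p) (hβ : β ≠ 0)
    (hfix : ∀ σ : Gb, σ ζ = ζ → ∃ k : ℕ, σ β = ζ ^ k * β)
    (htype : ∀ (δ : Gb) (t : ℕ), δ ζ = ζ ^ t → ∀ σ : Gb, σ ζ = ζ →
      σ (δ β / β ^ (t ^ 2)) = δ β / β ^ (t ^ 2))
    (hunr : ∀ ℓ : ℕ, ℓ.Prime → ℓ ≠ p → ∀ A : ValuationSubring Lb, A.LiesOverPrime ℓ →
      ∀ σ ∈ A.inertiaSubgroupIn ℚ, σ ζ = ζ ∧ σ β = β)
    (α : K0 ζ) (hα : (α : Lb) = β ^ p)
    (v : HeightOneSpectrum (𝓞 (K0 ζ))) (hv : (p : 𝓞 (K0 ζ)) ∉ v.asIdeal) :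
    ∃ y : K0 ζ, v.valuation (K0 ζ) α = v.valuation (K0 ζ) y ^ p := by
  have hp : p.Prime := Fact.out
  have : NeZero p := ⟨hp.ne_zero⟩
  have := isGalois_F1 ζ β hfix
  have hvmax : v.asIdeal.IsMaximal := v.isMaximal
  obtain ⟨W, hWmax, hWover⟩ :=
    Ideal.exists_maximal_ideal_liesOver_of_isIntegral (S := 𝓞 (F1 ζ β)) v.asIdeal
  have hWne : W ≠ ⊥ := by
    rintro rfl
    apply v.ne_bot
    rw [hWover.over, Ideal.under_bot]
  let w : HeightOneSpectrum (𝓞 (F1 ζ β)) := ⟨W, hWmax.isPrime, hWne⟩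
  have hwover : w.asIdeal.LiesOver v.asIdeal := hWover
  obtain ⟨A, ℓ, hℓ, hA, hAw⟩ := exists_valuationSubring_of_prime w
  have hne : ℓ ≠ p := by
    rintro rfl
    apply hv
    rw [Ideal.mem_of_liesOver w.asIdeal v.asIdeal, map_natCast, hAw]
    have hA' : (ℓ : Lb) ∈ A.nonunits := hA
    simpa using hA'
  have hI : A.inertiaSubgroupIn ℚ ≤ HH ζ β := fun σ hσ => hunr ℓ hℓ hne A hA σ hσ
  have he : v.asIdeal.ramificationIdx' w.asIdeal = 1 := by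
    refine ramificationIdx_eq_one_of_trivial_inertia v w fun τ h => ?_
    obtain ⟨τ', hτ'ζ, hτ'⟩ := exists_lift_F1 ζ β τ
    have hmem : τ' ∈ HH ζ β := by
      refine Fermat.Agent.S13.global_mem_of_inertia_le (HH ζ β) (HH_normal hζ hβ htype)
        (HH_isClosed ζ β) A hℓ hA hI τ' fun x hx => ?_
      rw [Fermat.Agent.S54.mem_centre_iff]
      have hxF : (x : Lb) ∈ F1 ζ β :=
        mem_F1_of_fixed ζ β x fun σ hσ => congrArg Subtype.val (hx σ hσ)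
      have hint : IsIntegral ℤ (⟨(x : Lb), hxF⟩ : F1 ζ β) :=
        (isIntegral_algebraMap_iff (algebraMap (F1 ζ β) Lb).injective).mp x.2
      obtain ⟨d, hd, hdeq⟩ := h ⟨⟨(x : Lb), hxF⟩, hint⟩
      have h1 := (hAw d).mp hd
      rw [hdeq] at h1
      have h2 := hτ' ⟨(x : Lb), hxF⟩
      have h3 : algebraMap (F1 ζ β) Lb (τ ⟨(x : Lb), hxF⟩ - ⟨(x : Lb), hxF⟩) = τ' (x : Lb) - x := by
        rw [map_sub, h2]
        rfl
      have h4 : ((τ' • x - x : integralClosure ℤ Lb) : Lb) = τ' (x : Lb) - x := rfl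
      rw [h4, ← h3]
      exact h1
    refine eq_one_of_apply_beta ζ β τ ?_
    rw [← hτ' ⟨β, beta_mem_F1 ζ β⟩]
    exact (mem_HH.mp hmem).2
  refine exists_val_eq_pow_of_ramificationIdx_eq_one v w he p α ⟨β, beta_mem_F1 ζ β⟩ ?_ ?_
  · intro h
    exact hβ (congrArg Subtype.val h)
  · apply Subtype.ext
    show (α : Lb) = _
    rw [hα]
    rfl

end Fermat.Agent.S14.TR
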