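import Mathlib

/-!
# S14/TR, task A2: trivial decomposition group ⇒ approximation by elements of the base field
-/

set_option autoImplicit false

namespace Fermat.Agent.S14.TR

open NumberField IsDedekindDomain

namespace A2

variable {K F : Type} [Field K] [NumberField K] [Field F] [NumberField F] [Algebra K F]

/-- restriction of `τ` to the ring of integers. -/
noncomputable abbrev res (τ : F ≃ₐ[K] F) : 𝓞 F ≃ₐ[𝓞 K] 𝓞 F := galRestrict (𝓞 K) K F (𝓞 F) τ

theorem coe_res (τ : F ≃ₐ[K] F) (x : 𝓞 F) : ((res τ x : 𝓞 F) : F) = τ (x : F) :=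
  algebraMap_galRestrict_apply (𝓞 K) τ x

/-- CRT: an integer `ε ≡ 1 mod w ^ N` all of whose nontrivial conjugates lie in `w ^ N`. -/
theorem exists_eps (w : HeightOneSpectrum (𝓞 F))
    (hstab : ∀ τ : F ≃ₐ[K] F,
      (∀ x y : 𝓞 F, (y : F) = τ (x : F) → (x ∈ w.asIdeal ↔ y ∈ w.asIdeal)) → τ = 1) (N : ℕ) :
    ∃ ε : 𝓞 F, ε - 1 ∈ w.asIdeal ^ N ∧ ∀ τ : F ≃ₐ[K] F, τ ≠ 1 → res τ ε ∈ w.asIdeal ^ N := by
  classical
  have : w.asIdeal.IsMaximal := w.isMaximal
  have hcop : ∀ τ : F ≃ₐ[K] F, τ ≠ 1 →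
      IsCoprime w.asIdeal (Ideal.comap (res τ) w.asIdeal) := by
    intro τ hτ
    have : (Ideal.comap (res τ) w.asIdeal).IsMaximal := Ideal.comap_isMaximal_of_equiv (res τ)
    apply Ideal.isCoprime_of_isMaximal
    intro h
    apply hτ
    apply hstab
    intro x y hxy
    have hy : y = res τ x := by
      apply RingOfIntegers.ext
      rw [hxy, coe_res]
    rw [hy]
    conv_lhs => rw [h]
    rfl
  have hcop2 : IsCoprime (w.asIdeal ^ N)
      (∏ τ ∈ (Finset.univ : Finset (F ≃ₐ[K] F)).erase 1,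
        (Ideal.comap (res τ) w.asIdeal) ^ N) := by
    apply IsCoprime.prod_right
    intro τ hτ
    exact (hcop τ (Finset.ne_of_mem_erase hτ)).pow
  obtain ⟨a, ha, ε, hε, hsum⟩ := Ideal.isCoprime_iff_exists.mp hcop2
  refine ⟨ε, ?_, ?_⟩
  · have : ε - 1 = -a := by rw [← hsum]; ring
    rw [this]
    exact neg_mem ha
  · intro τ hτ
    have h1 : ε ∈ (Ideal.comap (res τ) w.asIdeal) ^ N := by
      have h2 := Ideal.prod_le_inf hε
      have h3 : ((Finset.univ : Finset (F ≃ₐ[K] F)).erase 1).inf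
          (fun τ => (Ideal.comap (res τ) w.asIdeal) ^ N) ≤ (Ideal.comap (res τ) w.asIdeal) ^ N :=
        Finset.inf_le (Finset.mem_erase.mpr ⟨hτ, Finset.mem_univ τ⟩)
      exact h3 h2
    exact Ideal.le_comap_pow (res τ) N h1

theorem valuation_le_of_mem (w : HeightOneSpectrum (𝓞 F)) {x : 𝓞 F} {N : ℕ}
    (hx : x ∈ w.asIdeal ^ N) : w.valuation F (x : F) ≤ WithZero.exp (-(N : ℤ)) := by
  have h := (w.intValuation_le_pow_iff_mem x N).mpr hx
  rwa [← w.valuation_of_algebraMap (K := F)] at h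

/-- choice of the precision. -/
theorem exists_prec (W : Valuation F (WithZero (Multiplicative ℤ))) (β : F) (hβ : β ≠ 0) (c : ℕ) :
    ∃ N : ℕ, ∀ τ : F ≃ₐ[K] F,
      WithZero.exp (-(N : ℤ)) * W (τ β) ≤ WithZero.exp (-(c : ℤ)) * W β := by
  classical
  set a : (F ≃ₐ[K] F) → ℤ := fun τ => (W (τ β)).log with ha
  have hne : ∀ τ : F ≃ₐ[K] F, W (τ β) ≠ 0 := by
    intro τ
    rw [Valuation.ne_zero_iff]
    simpa using hβ
  have hexp : ∀ τ : F ≃ₐ[K] F, W (τ β) = WithZero.exp (a τ) := fun τ =>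
    (WithZero.exp_log (hne τ)).symm
  refine ⟨c + ∑ τ : F ≃ₐ[K] F, (a τ).natAbs + (a 1).natAbs, fun τ => ?_⟩
  have h1 : W β = WithZero.exp (a 1) := by
    have := hexp 1
    simpa using this
  rw [h1, hexp τ, ← WithZero.exp_add, ← WithZero.exp_add, WithZero.exp_le_exp]
  have h2 : (a τ).natAbs ≤ ∑ τ : F ≃ₐ[K] F, (a τ).natAbs :=
    Finset.single_le_sum (f := fun τ => (a τ).natAbs) (fun _ _ => Nat.zero_le _)
      (Finset.mem_univ τ)
  have h3 : a τ ≤ ((a τ).natAbs : ℤ) := Int.le_natAbs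
  have h4 : -(a 1) ≤ ((a 1).natAbs : ℤ) := by
    rw [← Int.natAbs_neg]; exact Int.le_natAbs
  push_cast
  have h2' : ((a τ).natAbs : ℤ) ≤ ∑ τ : F ≃ₐ[K] F, ((a τ).natAbs : ℤ) := by exact_mod_cast h2
  simp only [Int.natCast_natAbs] at *
  linarith

end A2

/-- **Trace trick.**  `F/K` Galois, `w ∣ v` with trivial decomposition group.  If `α = β ^ p` with
`β ∈ F`, then `α` is a `p`-th power in `K` to any `v`-adic precision. -/
theorem exists_approx_of_trivial_decomposition
    {K F : Type} [Field K] [NumberField K] [Field F] [NumberField F] [Algebra K F] [IsGalois K F]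
    (v : HeightOneSpectrum (𝓞 K)) (w : HeightOneSpectrum (𝓞 F)) [w.asIdeal.LiesOver v.asIdeal]
    (hstab : ∀ τ : F ≃ₐ[K] F,
      (∀ x y : 𝓞 F, (y : F) = τ (x : F) → (x ∈ w.asIdeal ↔ y ∈ w.asIdeal)) → τ = 1)
    (p : ℕ) (α : K) (β : F) (hβ : β ≠ 0) (hαβ : algebraMap K F α = β ^ p) (n : ℕ) :
    ∃ y : K, y ≠ 0 ∧ v.valuation K (α / y ^ p - 1) ≤ WithZero.exp (-(n : ℤ)) := by
  classical
  set e := v.asIdeal.ramificationIdx' w.asIdeal with he_def
  have he : e ≠ 0 := Ideal.IsDedekindDomain.ramificationIdx'_ne_zero_of_liesOver w.asIdeal v.ne_bot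
  set W := w.valuation F with hW
  set c : ℕ := e * (n + 1) with hc
  have hcpos : 0 < c := Nat.mul_pos (Nat.pos_of_ne_zero he) (Nat.succ_pos n)
  obtain ⟨N, hN⟩ := A2.exists_prec (K := K) W β hβ c
  obtain ⟨ε, hε1, hε2⟩ := A2.exists_eps (K := K) w hstab N
  set C := WithZero.exp (-(c : ℤ)) * W β with hC
  have hWβ : W β ≠ 0 := (Valuation.ne_zero_iff _).mpr hβ
  have hWβ0 : 0 < W β := zero_lt_iff.mpr hWβ
  -- the trace
  set y : K := Algebra.trace K F ((ε : F) * β) with hy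
  have hyF : algebraMap K F y = ∑ τ : F ≃ₐ[K] F, τ ((ε : F) * β) := trace_eq_sum_automorphisms _
  have hsub : algebraMap K F y - β = ((ε : F) - 1) * β +
      ∑ τ ∈ (Finset.univ : Finset (F ≃ₐ[K] F)).erase 1, τ ((ε : F) * β) := by
    rw [hyF, ← Finset.add_sum_erase _ _ (Finset.mem_univ (1 : F ≃ₐ[K] F))]
    simp only [AlgEquiv.one_apply]
    ring
  have hbound : W (algebraMap K F y - β) ≤ C := by
    rw [hsub]
    apply Valuation.map_add_le
    · rw [map_mul]
      have h1 : W ((ε : F) - 1) ≤ WithZero.exp (-(N : ℤ)) := by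
        have := A2.valuation_le_of_mem w hε1
        simpa using this
      have h2 := hN 1
      simp only [AlgEquiv.one_apply] at h2
      exact (mul_le_mul_left h1 _).trans h2
    · apply Valuation.map_sum_le
      intro τ hτ
      rw [map_mul, map_mul]
      have h1 : W (τ (ε : F)) ≤ WithZero.exp (-(N : ℤ)) := by
        have := A2.valuation_le_of_mem w (hε2 τ (Finset.ne_of_mem_erase hτ))
        rwa [A2.coe_res] at this
      exact (mul_le_mul_left h1 _).trans (hN τ)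
  have hClt : C < W β := by
    rw [hC]
    have : WithZero.exp (-(c : ℤ)) < 1 := by
      rw [← WithZero.exp_zero, WithZero.exp_lt_exp]
      have : (0 : ℤ) < c := by exact_mod_cast hcpos
      linarith
    exact mul_lt_of_lt_one_left hWβ0 this
  have hWy : W (algebraMap K F y) = W β := Valuation.map_eq_of_sub_lt _ (hbound.trans_lt hClt)
  have hyF0 : algebraMap K F y ≠ 0 := by
    rw [← Valuation.ne_zero_iff W, hWy]; exact hWβ
  have hy0 : y ≠ 0 := by
    intro h; apply hyF0; rw [h, map_zero]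
  refine ⟨y, hy0, ?_⟩
  set a : F := β / algebraMap K F y with ha
  have hWa : W a = 1 := by
    rw [ha, map_div₀, hWy, div_self hWβ]
  have hWa1 : W (a - 1) ≤ WithZero.exp (-(c : ℤ)) := by
    have h1 : a - 1 = (β - algebraMap K F y) / algebraMap K F y := by
      rw [ha]; field_simp
    rw [h1, map_div₀, hWy, Valuation.map_sub_swap, div_le_iff₀ hWβ0]
    exact hbound
  have hWap : W (a ^ p - 1) ≤ WithZero.exp (-(c : ℤ)) := by
    rw [← geom_sum_mul, map_mul]
    have h1 : W (∑ i ∈ Finset.range p, a ^ i) ≤ 1 := by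
      apply Valuation.map_sum_le
      intro i _
      rw [map_pow, hWa, one_pow]
    calc W (∑ i ∈ Finset.range p, a ^ i) * W (a - 1) ≤ 1 * WithZero.exp (-(c : ℤ)) :=
          mul_le_mul' h1 hWa1
      _ = _ := one_mul _
  have hmap : algebraMap K F (α / y ^ p - 1) = a ^ p - 1 := by
    rw [map_sub, map_div₀, map_pow, hαβ, map_one, ha, div_pow]
  have hlies := HeightOneSpectrum.valuation_liesOver F v w (α / y ^ p - 1)
  rw [hmap] at hlies
  have h5 : v.valuation K (α / y ^ p - 1) ^ e ≤ WithZero.exp (-((n : ℤ) + 1)) ^ e := by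
    rw [hlies, ← WithZero.exp_nsmul]
    refine hWap.trans (le_of_eq ?_)
    congr 1
  have h6 := (pow_le_pow_iff_left₀ zero_le zero_le he).mp h5
  refine h6.trans ?_
  rw [WithZero.exp_le_exp]
  linarith

end Fermat.Agent.S14.TR
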