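import Mathlib
import Fermat.Prelude.Def_FLTPrelim_Ramification
import Fermat.Agent.S13.Global

/-!
# S14/TR, task B3: lifting elements of a finite-level decomposition group to `D_A`
-/

set_option autoImplicit false
set_option linter.style.haveILetI false

namespace Fermat.Agent.S14.TR

open Pointwise Fermat.Agent.S54

local notation "Lb" => AlgebraicClosure ℚ
local notation "Gb" => (AlgebraicClosure ℚ ≃ₐ[ℚ] AlgebraicClosure ℚ)
local notation "Bb" => integralClosure ℤ (AlgebraicClosure ℚ)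

attribute [local instance] isAlgebraic_Lb isAlgClosure_Lb isGalois_Lb

/-- If `τ` preserves the prime `centre A ∩ ℤ̄^H` of `ℤ̄^H` (`H` closed normal), then `h τ ∈ D_A` for
some `h ∈ H`. -/
theorem exists_mul_mem_decomposition (H : Subgroup Gb) (hHn : H.Normal)
    (hHc : IsClosed (H : Set Gb)) (A : ValuationSubring Lb) {ℓ : ℕ} (hℓ : ℓ.Prime)
    (hA : A.LiesOverPrime ℓ) (τ : Gb)
    (hτ : ∀ x : Bb, (∀ h ∈ H, h • x = x) → (x ∈ centre A ↔ τ • x ∈ centre A)) :
    ∃ h ∈ H, h * τ ∈ A.decompositionSubgroup ℚ := by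
  letI : TopologicalSpace Bb := ⊥
  haveI : DiscreteTopology Bb := ⟨rfl⟩
  haveI : ContinuousSMul Gb Bb := by
    rw [continuousSMul_iff_stabilizer_isOpen]
    intro x
    have := stabilizer_isOpen_of_isIntegral (K := ℚ) (L := Lb) (x : Lb)
    convert this using 1
    ext g
    simp only [SetLike.mem_coe, MulAction.mem_stabilizer_iff]
    constructor
    · intro h; exact congrArg Subtype.val h
    · intro h; exact Subtype.ext h
  haveI : ContinuousSMul H Bb := by
    constructor
    have h1 : Continuous (fun p : Gb × Bb => p.1 • p.2) := continuous_smul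
    exact h1.comp ((continuous_subtype_val.comp continuous_fst).prodMk continuous_snd)
  haveI : CompactSpace H := isCompact_iff_compactSpace.mp hHc.isCompact
  let A0 := FixedPoints.subalgebra ℤ Bb H
  haveI : SMulCommClass H A0 Bb := ⟨fun h a b => by
    show h • ((a : Bb) * b) = (a : Bb) * (h • b)
    rw [smul_mul', a.2 h]⟩
  haveI : Algebra.IsInvariant A0 Bb H := ⟨fun b hb => ⟨⟨b, hb⟩, rfl⟩⟩
  have hfix : ∀ (ρ : Gb) (x : Bb), (∀ h ∈ H, h • x = x) → ∀ h ∈ H, h • (ρ • x) = ρ • x := by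
    intro ρ x hx h hh
    have h1 : (ρ⁻¹ * h * ρ) • x = x := by
      apply hx
      have := hHn.conj_mem h hh ρ⁻¹
      simpa using this
    calc h • (ρ • x) = ρ • ((ρ⁻¹ * h * ρ) • x) := by
          simp only [mul_smul, smul_inv_smul]
      _ = ρ • x := by rw [h1]
  set Q := centre A with hQ
  have hmemA0 : ∀ a : A0, ∀ h ∈ H, h • (a : Bb) = a := fun a h hh => a.2 ⟨h, hh⟩
  have hunder : (τ • Q).under A0 = Q.under A0 := by
    ext a
    rw [Ideal.mem_comap, Ideal.mem_comap]
    show (a : Bb) ∈ τ • Q ↔ (a : Bb) ∈ Q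
    rw [Ideal.mem_pointwise_smul_iff_inv_smul_mem]
    have h1 := hτ (τ⁻¹ • (a : Bb)) (hfix τ⁻¹ _ (hmemA0 a))
    rw [smul_inv_smul] at h1
    exact h1
  obtain ⟨g, hg⟩ := Algebra.IsInvariant.exists_smul_of_under_eq_of_profinite (A := A0) (G := H)
    (τ • Q) Q hunder
  set σ : Gb := (g : Gb) * τ with hσdef
  have hσ : σ • Q = Q := by
    rw [hσdef, mul_smul]
    exact hg.symm
  have hσinv : σ⁻¹ • Q = Q := by
    conv_lhs => rw [← hσ]
    rw [inv_smul_smul]
  refine ⟨g, g.2, ?_⟩
  show σ ∈ A.decompositionSubgroup ℚ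
  rw [MulAction.mem_stabilizer_iff]
  ext x
  rw [ValuationSubring.mem_pointwise_smul_iff_inv_smul_mem]
  constructor
  · intro h
    have := smul_mem_of_stabilizer A hℓ hA σ hσ _ h
    simpa using this
  · intro h
    exact smul_mem_of_stabilizer A hℓ hA σ⁻¹ hσinv _ h

end Fermat.Agent.S14.TR
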