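import Mathlib
import Fermat.Prelude.Def_FLTPrelim_Ramification
import Fermat.Agent.S13.Global
import Fermat.Agent.S14.TR.FSetup
import Fermat.Agent.S14.TR.A2Trace
import Fermat.Agent.S14.TR.B1Exists
import Fermat.Agent.S14.TR.B3Decomp

/-!
# S14/TR, task F3: (H2) at the primes `v ∣ p`
-/

set_option autoImplicit false
set_option linter.style.haveILetI false

namespace Fermat.Agent.S14.TR

open NumberField IsDedekindDomain Fermat.Agent.S54

local notation "Lb" => AlgebraicClosure ℚ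
local notation "Gb" => (AlgebraicClosure ℚ ≃ₐ[ℚ] AlgebraicClosure ℚ)
local notation "Bb" => integralClosure ℤ (AlgebraicClosure ℚ)

/-- Sketch.  `F := F1 ζ β` is Galois over `K := K0 ζ` (`isGalois_F1`).  Choose a prime `w` of `𝓞 F` over
`v`; `exists_valuationSubring_of_prime w` gives `A`, `ℓ`; `A.LiesOverPrime p` because `(p : 𝓞 F) ∈ w`
(use the `iff` with `x = p`; so one may forget `ℓ`, or note `ℓ = p`).
Apply `exists_approx_of_trivial_decomposition v w hstab p α ⟨β, _⟩`.  For `hstab`: let `τ` preserve `w`;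
lift to `τ' : Gb` (`exists_lift_F1`), `τ' ζ = ζ`.  By `exists_mul_mem_decomposition (HH ζ β) …  τ'`
(an `HH`-fixed `x : ℤ̄` is some `x' : 𝓞 F` by `mem_F1_of_fixed`; `x ∈ centre A ↔ x' ∈ w`) there is
`h ∈ HH ζ β` with `h * τ' ∈ D_A`; `(h * τ') ζ = ζ`, so `hloc` gives `h (τ' β) = β`, so
`τ' β = h⁻¹ β = β`; hence `τ = 1` (`eq_one_of_apply_beta`). -/
theorem H2_at_p {p : ℕ} [Fact p.Prime] (ζ β : Lb) (hζ : IsPrimitiveRoot ζ p) (hβ : β ≠ 0)
    (hfix : ∀ σ : Gb, σ ζ = ζ → ∃ k : ℕ, σ β = ζ ^ k * β)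
    (htype : ∀ (δ : Gb) (t : ℕ), δ ζ = ζ ^ t → ∀ σ : Gb, σ ζ = ζ →
      σ (δ β / β ^ (t ^ 2)) = δ β / β ^ (t ^ 2))
    (hloc : ∀ A : ValuationSubring Lb, A.LiesOverPrime p →
      ∀ σ ∈ A.decompositionSubgroup ℚ, σ ζ = ζ → σ β = β)
    (α : K0 ζ) (hα : (α : Lb) = β ^ p)
    (v : HeightOneSpectrum (𝓞 (K0 ζ))) (hv : (p : 𝓞 (K0 ζ)) ∈ v.asIdeal) (n : ℕ) :
    ∃ y : K0 ζ, y ≠ 0 ∧ v.valuation (K0 ζ) (α / y ^ p - 1) ≤ WithZero.exp (-(n : ℤ)) := by
  have hp : p.Prime := Fact.out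
  haveI := isGalois_F1 ζ β hfix
  haveI : v.asIdeal.IsMaximal := v.isMaximal
  obtain ⟨Q, hQmax, hQlies⟩ :=
    Ideal.exists_maximal_ideal_liesOver_of_isIntegral v.asIdeal (S := 𝓞 (F1 ζ β))
  let w : HeightOneSpectrum (𝓞 (F1 ζ β)) :=
    ⟨Q, hQmax.isPrime, Ideal.ne_bot_of_liesOver_of_ne_bot v.ne_bot Q⟩
  haveI : w.asIdeal.LiesOver v.asIdeal := hQlies
  obtain ⟨A, ℓ, -, -, hAw⟩ := exists_valuationSubring_of_prime w
  have hAp : A.LiesOverPrime p := by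
    have h1 : (p : 𝓞 (F1 ζ β)) ∈ w.asIdeal := by
      have h2 := (Ideal.mem_of_liesOver w.asIdeal v.asIdeal (p : 𝓞 (K0 ζ))).1 hv
      simpa using h2
    have h3 := (hAw _).1 h1
    show (p : Lb) ∈ A.nonunits
    simpa using h3
  refine exists_approx_of_trivial_decomposition v w ?_ p α ⟨β, beta_mem_F1 ζ β⟩ ?_ ?_ n
  · intro τ hτ
    obtain ⟨τ', hτ'ζ, hτ'⟩ := exists_lift_F1 ζ β τ
    obtain ⟨h, hh, hmem⟩ := exists_mul_mem_decomposition (HH ζ β) (HH_normal hζ hβ htype)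
      (HH_isClosed ζ β) A hp hAp τ' (by
        intro x hx
        have hxF : (x : Lb) ∈ F1 ζ β := mem_F1_of_fixed ζ β x fun σ hσ =>
          congrArg Subtype.val (hx σ hσ)
        have hxint : IsIntegral ℤ (⟨(x : Lb), hxF⟩ : F1 ζ β) :=
          (isIntegral_algebraMap_iff (algebraMap (F1 ζ β) Lb).injective).1 x.2
        let x' : 𝓞 (F1 ζ β) := ⟨⟨(x : Lb), hxF⟩, hxint⟩
        let y' : 𝓞 (F1 ζ β) := ⟨τ ⟨(x : Lb), hxF⟩, map_isIntegral_int τ hxint⟩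
        have h1 := hτ x' y' rfl
        rw [mem_centre_iff, mem_centre_iff]
        have h2 := hAw x'
        have h3 := hAw y'
        have e2 : algebraMap (F1 ζ β) Lb ((x' : 𝓞 (F1 ζ β)) : F1 ζ β) = (x : Lb) := rfl
        have e3 : algebraMap (F1 ζ β) Lb ((y' : 𝓞 (F1 ζ β)) : F1 ζ β) = ((τ' • x : Bb) : Lb) :=
          (hτ' ⟨(x : Lb), hxF⟩).symm
        rw [e2] at h2
        rw [e3] at h3
        rw [← h2, ← h3]
        exact h1)
    have h1 : (h * τ') ζ = ζ := by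
      rw [AlgEquiv.mul_apply, hτ'ζ, hh.1]
    have h2 := hloc A hAp (h * τ') hmem h1
    rw [AlgEquiv.mul_apply] at h2
    have h3 : τ' β = β := h.injective (h2.trans hh.2.symm)
    apply eq_one_of_apply_beta ζ β τ
    rw [← hτ']
    exact h3
  · intro h
    exact hβ (congrArg Subtype.val h)
  · apply Subtype.ext
    exact hα

end Fermat.Agent.S14.TR
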