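import Mathlib
import Fermat.Agent.S14.TR.FSetup

/-!
# S14/TR, task F4: (H3) `α = β ^ p` is of type `ω²`
-/

set_option autoImplicit false

namespace Fermat.Agent.S14.TR

local notation "Lb" => AlgebraicClosure ℚ
local notation "Gb" => (AlgebraicClosure ℚ ≃ₐ[ℚ] AlgebraicClosure ℚ)

/-- Sketch: lift `σ` to `δ : Gb` (`exists_lift_K0`); `δ ζ = ζ ^ t`; `g := δ β / β ^ t²` lies in `K0 ζ` by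
`mem_K0_iff` and `htype`; `δ (β ^ p) = (β ^ p) ^ t² * g ^ p` (`β ≠ 0`); compare in `Lb`
(`Subtype.ext`). -/
theorem H3_type {p : ℕ} [Fact p.Prime] (ζ β : Lb) (hζ : IsPrimitiveRoot ζ p) (hβ : β ≠ 0)
    (htype : ∀ (δ : Gb) (t : ℕ), δ ζ = ζ ^ t → ∀ σ : Gb, σ ζ = ζ →
      σ (δ β / β ^ (t ^ 2)) = δ β / β ^ (t ^ 2))
    (α : K0 ζ) (hα : (α : Lb) = β ^ p) (ζ₀ : K0 ζ) (hζ₀ : (ζ₀ : Lb) = ζ)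
    (σ : K0 ζ ≃ₐ[ℚ] K0 ζ) (t : ℕ) (hσ : σ ζ₀ = ζ₀ ^ t) :
    ∃ g : K0 ζ, σ α = α ^ (t ^ 2) * g ^ p := by
  have : NeZero p := ⟨(Fact.out : p.Prime).ne_zero⟩
  obtain ⟨δ, hδ⟩ := exists_lift_K0 hζ σ
  have hδζ : δ ζ = ζ ^ t := by
    rw [← hζ₀, hδ ζ₀, hσ]
    rfl
  have hg : δ β / β ^ (t ^ 2) ∈ K0 ζ := (mem_K0_iff ζ _).mpr (htype δ t hδζ)
  refine ⟨⟨_, hg⟩, ?_⟩
  apply Subtype.ext
  rw [← hδ α, hα, map_pow]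
  have h1 : ((α ^ (t ^ 2) * (⟨δ β / β ^ (t ^ 2), hg⟩ : K0 ζ) ^ p : K0 ζ) : Lb) =
      (α : Lb) ^ (t ^ 2) * (δ β / β ^ (t ^ 2)) ^ p := rfl
  rw [h1, hα]
  have h2 : β ^ (t ^ 2) ≠ 0 := pow_ne_zero _ hβ
  rw [div_pow, ← pow_mul, ← pow_mul, mul_comm (t ^ 2) p, mul_div_cancel₀ _ (pow_ne_zero _ hβ)]

end Fermat.Agent.S14.TR
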