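import Mathlib
import Fermat.Prelude.Def_FLTPrelim_Ramification
import Fermat.Agent.S14.CoreStatement
import Fermat.Agent.S14.TR.FSetup
import Fermat.Agent.S14.TR.F2Away
import Fermat.Agent.S14.TR.F3AtP
import Fermat.Agent.S14.TR.F4Type

/-!
# S14/TR, F5: the field side: `CoreStatement p` forces `β ∈ ℚ(ζ)`
-/

set_option autoImplicit false
set_option linter.style.haveILetI false

namespace Fermat.Agent.S14.TR

open NumberField IsDedekindDomain

local notation "Lb" => AlgebraicClosure ℚ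
local notation "Gb" => (AlgebraicClosure ℚ ≃ₐ[ℚ] AlgebraicClosure ℚ)

theorem field_side {p : ℕ} [Fact p.Prime] (hCT : CoreStatement p)
    (ζ β : Lb) (hζ : IsPrimitiveRoot ζ p) (hβ : β ≠ 0)
    (hfix : ∀ σ : Gb, σ ζ = ζ → ∃ k : ℕ, σ β = ζ ^ k * β)
    (htype : ∀ (δ : Gb) (t : ℕ), δ ζ = ζ ^ t → ∀ σ : Gb, σ ζ = ζ →
      σ (δ β / β ^ (t ^ 2)) = δ β / β ^ (t ^ 2))
    (hunr : ∀ ℓ : ℕ, ℓ.Prime → ℓ ≠ p → ∀ A : ValuationSubring Lb, A.LiesOverPrime ℓ →
      ∀ σ ∈ A.inertiaSubgroupIn ℚ, σ ζ = ζ ∧ σ β = β)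
    (hloc : ∀ A : ValuationSubring Lb, A.LiesOverPrime p →
      ∀ σ ∈ A.decompositionSubgroup ℚ, σ ζ = ζ → σ β = β) :
    ∀ σ : Gb, σ ζ = ζ → σ β = β := by
  haveI : NeZero p := ⟨(Fact.out : p.Prime).ne_zero⟩
  have hp0 : p ≠ 0 := (Fact.out : p.Prime).ne_zero
  -- `α = β ^ p ∈ K0 ζ`
  have hαmem : β ^ p ∈ K0 ζ := by
    rw [mem_K0_iff]
    intro σ hσ
    obtain ⟨k, hk⟩ := hfix σ hσ
    rw [map_pow, hk, mul_pow, ← pow_mul, mul_comm k p, pow_mul, hζ.pow_eq_one, one_pow, one_mul]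
  let α : K0 ζ := ⟨β ^ p, hαmem⟩
  have hα : (α : Lb) = β ^ p := rfl
  let ζ₀ : K0 ζ := ⟨ζ, IntermediateField.mem_adjoin_simple_self ℚ ζ⟩
  have hζ₀ : (ζ₀ : Lb) = ζ := rfl
  have hζ₀prim : IsPrimitiveRoot ζ₀ p := by
    have : IsPrimitiveRoot (algebraMap (K0 ζ) Lb ζ₀) p := hζ
    exact IsPrimitiveRoot.of_map_of_injective this (algebraMap (K0 ζ) Lb).injective
  have hα0 : α ≠ 0 := by
    intro h
    have : (α : Lb) = 0 := by rw [h]; rfl
    rw [hα] at this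
    exact hβ (pow_eq_zero_iff hp0 |>.mp this)
  haveI := isCyclotomicExtension_K0 hζ
  have H2 := fun (v : HeightOneSpectrum (𝓞 (K0 ζ))) (hv : (p : 𝓞 (K0 ζ)) ∈ v.asIdeal) (n : ℕ) =>
    H2_at_p ζ β hζ hβ hfix htype hloc α hα v hv n
  obtain ⟨b, hb⟩ := hCT (K0 ζ) ζ₀ hζ₀prim α hα0
    (by
      intro v
      by_cases hv : (p : 𝓞 (K0 ζ)) ∈ v.asIdeal
      · obtain ⟨y, hy0, hy⟩ := H2 v hv 1
        refine ⟨y, ?_⟩
        have hlt : v.valuation (K0 ζ) (α / y ^ p - 1) < 1 := by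
          refine lt_of_le_of_lt hy ?_
          rw [← WithZero.exp_zero, WithZero.exp_lt_exp]
          norm_num
        have h1 : v.valuation (K0 ζ) (α / y ^ p) = 1 := by
          have := Valuation.map_add_eq_of_lt_left (v.valuation (K0 ζ))
            (x := (1 : K0 ζ)) (y := α / y ^ p - 1) (by rwa [map_one])
          rw [map_one] at this
          rw [← this]
          congr 1
          ring
        rw [map_div₀, map_pow] at h1
        have hy' : v.valuation (K0 ζ) y ^ p ≠ 0 := by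
          apply pow_ne_zero
          rwa [Valuation.ne_zero_iff]
        rwa [div_eq_one_iff_eq hy'] at h1
      · exact H1_away ζ β hζ hβ hfix htype hunr α hα v hv)
    H2
    (fun σ t hσ => H3_type ζ β hζ hβ htype α hα ζ₀ hζ₀ σ t hσ)
  -- `β / b` is a `p`-th root of unity
  have hb' : β ^ p = (b : Lb) ^ p := by
    have := congrArg (fun x : K0 ζ => (x : Lb)) hb
    simpa using this
  have hb0 : (b : Lb) ≠ 0 := by
    intro h
    rw [h, zero_pow hp0] at hb'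
    exact hβ (pow_eq_zero_iff hp0 |>.mp hb')
  have h1 : (β / (b : Lb)) ^ p = 1 := by
    rw [div_pow, hb', div_self (pow_ne_zero _ hb0)]
  obtain ⟨i, -, hi⟩ := hζ.eq_pow_of_pow_eq_one h1
  have hβeq : β = ζ ^ i * (b : Lb) := by
    rw [hi]; field_simp
  have hβmem : β ∈ K0 ζ := by
    rw [hβeq]
    exact mul_mem (pow_mem (IntermediateField.mem_adjoin_simple_self ℚ ζ) i) b.2
  exact (mem_K0_iff ζ β).mp hβmem

end Fermat.Agent.S14.TR
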