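import Mathlib
import Fermat.Prelude.Def_ExtCitation_AdmissibleExtension_v2

/-!
# S14/TR, task V0: a frame `(e, v₀)` of an admissible extension and its cocycle `b`
-/

set_option autoImplicit false

namespace Fermat.Agent.S14.TR

open ExtCitation

local notation "Gb" => (AlgebraicClosure ℚ ≃ₐ[ℚ] AlgebraicClosure ℚ)

/-- Sketch: `Nat.card C = p` ⇒ pick `e ∈ C`, `e ≠ 0`; `a ↦ a • e` is injective `ZMod p → C`, hence
bijective by cardinality.  `Nat.card V = p ^ 2 > p` ⇒ pick `v₀ ∉ C`.  `(a, a') ↦ a • v₀ + a' • e` is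
injective `ZMod p × ZMod p → V`, hence bijective by cardinality.  `b σ` is chosen from
`cyclo_quot σ v₀ : σ • v₀ - ω σ • v₀ ∈ C`. -/
theorem exists_frame {p : ℕ} [Fact p.Prime] (V : Type) [AddCommGroup V] [Module (ZMod p) V]
    [DistribMulAction Gb V] [SMulCommClass Gb (ZMod p) V] (C : Submodule (ZMod p) V)
    (h : IsAdmissibleExtension p V C) :
    ∃ (e v₀ : V) (b : Gb → ZMod p),
      (∀ x : V, x ∈ C ↔ ∃ a : ZMod p, x = a • e) ∧
      (∀ a a' : ZMod p, a • v₀ + a' • e = 0 → a = 0 ∧ a' = 0) ∧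
      (∀ x : V, ∃ a a' : ZMod p, x = a • v₀ + a' • e) ∧
      (∀ σ : Gb, σ • e = e) ∧
      (∀ σ : Gb, σ • v₀ = (cycloExp p σ : ZMod p) • v₀ + b σ • e) := by
  classical
  have hp : p.Prime := Fact.out
  have hCfin : Finite C := Nat.finite_of_card_ne_zero (by rw [h.card_sub]; exact hp.ne_zero)
  have hVfin : Finite V :=
    Nat.finite_of_card_ne_zero (by rw [h.card_total]; exact pow_ne_zero _ hp.ne_zero)
  have hCnt : Nontrivial C := by
    rw [← Finite.one_lt_card_iff_nontrivial, h.card_sub]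
    exact hp.one_lt
  obtain ⟨⟨e, heC⟩, he0⟩ := exists_ne (0 : C)
  have he : e ≠ 0 := fun h0 => he0 (Subtype.ext h0)
  -- `C` is spanned by `e`
  have hφinj : Function.Injective (fun a : ZMod p => (⟨a • e, C.smul_mem a heC⟩ : C)) := by
    intro a a' haa
    have h1 : a • e = a' • e := congrArg Subtype.val haa
    have h2 : (a - a') • e = 0 := by rw [sub_smul, h1, sub_self]
    rcases smul_eq_zero.mp h2 with h3 | h3
    · exact sub_eq_zero.mp h3
    · exact absurd h3 he
  have hφbij := hφinj.bijective_of_nat_card_le (by rw [h.card_sub, Nat.card_zmod])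
  have hC : ∀ x : V, x ∈ C ↔ ∃ a : ZMod p, x = a • e := by
    intro x
    constructor
    · intro hx
      obtain ⟨a, ha⟩ := hφbij.2 ⟨x, hx⟩
      exact ⟨a, (congrArg Subtype.val ha).symm⟩
    · rintro ⟨a, rfl⟩
      exact C.smul_mem a heC
  -- a vector outside `C`
  obtain ⟨v₀, hv₀⟩ : ∃ v₀ : V, v₀ ∉ C := by
    by_contra hall
    push Not at hall
    have htop : C = ⊤ := by
      rw [eq_top_iff]; exact fun x _ => hall x
    have h1 : Nat.card C = Nat.card V := by
      rw [htop]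
      exact Nat.card_congr (Equiv.Set.univ V)
    rw [h.card_sub, h.card_total] at h1
    have h2 : p * 1 = p * p := by rw [mul_one, ← sq]; exact h1
    have h3 := Nat.eq_of_mul_eq_mul_left hp.pos h2
    exact hp.one_lt.ne h3
  have hindep : ∀ a a' : ZMod p, a • v₀ + a' • e = 0 → a = 0 ∧ a' = 0 := by
    intro a a' haa
    have ha : a = 0 := by
      by_contra ha
      apply hv₀
      have h1 : a • v₀ = (-a') • e := by
        rw [neg_smul]; exact eq_neg_of_add_eq_zero_left haa
      have h2 : v₀ = a⁻¹ • ((-a') • e) := by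
        rw [← h1, smul_smul, inv_mul_cancel₀ ha, one_smul]
      rw [h2]
      exact C.smul_mem _ (C.smul_mem _ heC)
    refine ⟨ha, ?_⟩
    rw [ha, zero_smul, zero_add] at haa
    rcases smul_eq_zero.mp haa with h3 | h3
    · exact h3
    · exact absurd h3 he
  have hψinj : Function.Injective (fun a : ZMod p × ZMod p => a.1 • v₀ + a.2 • e) := by
    rintro ⟨a, a'⟩ ⟨c, c'⟩ hac
    have h1 : (a - c) • v₀ + (a' - c') • e = 0 := by
      have h2 : a • v₀ + a' • e = c • v₀ + c' • e := hac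
      rw [sub_smul, sub_smul]
      have : a • v₀ - c • v₀ + (a' • e - c' • e) = (a • v₀ + a' • e) - (c • v₀ + c' • e) := by abel
      rw [this, h2, sub_self]
    obtain ⟨h2, h3⟩ := hindep _ _ h1
    rw [sub_eq_zero.mp h2, sub_eq_zero.mp h3]
  have hψbij := hψinj.bijective_of_nat_card_le
    (by rw [h.card_total, Nat.card_prod, Nat.card_zmod, sq])
  have hspan : ∀ x : V, ∃ a a' : ZMod p, x = a • v₀ + a' • e := by
    intro x
    obtain ⟨⟨a, a'⟩, ha⟩ := hψbij.2 x
    exact ⟨a, a', ha.symm⟩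
  have hb : ∀ σ : Gb, ∃ a : ZMod p, σ • v₀ - (cycloExp p σ : ZMod p) • v₀ = a • e :=
    fun σ => (hC _).mp (h.cyclo_quot σ v₀)
  choose b hb using hb
  refine ⟨e, v₀, b, hC, hindep, hspan, fun σ => h.fixed_sub σ e heC, fun σ => ?_⟩
  rw [← hb σ]
  abel

end Fermat.Agent.S14.TR
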