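import Mathlib
import Fermat.Prelude.Def_ExtCitation_KummerBridge

/-!
# S14/TR, task V3: basic facts on `ExtCitation.cycloExp`
-/

set_option autoImplicit false

namespace Fermat.Agent.S14.TR

open ExtCitation

local notation "Lb" => AlgebraicClosure ℚ
local notation "Gb" => (AlgebraicClosure ℚ ≃ₐ[ℚ] AlgebraicClosure ℚ)

variable {p : ℕ} [Fact p.Prime]

theorem V3.pow_eq_pow_iff {ζ : Lb} (hζ : IsPrimitiveRoot ζ p) (a b : ℕ) :
    ζ ^ a = ζ ^ b ↔ (a : ZMod p) = (b : ZMod p) := by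
  have hp : 0 < p := (Fact.out : p.Prime).pos
  have hmod : ∀ n : ℕ, ζ ^ n = ζ ^ (n % p) := by
    intro n
    conv_lhs => rw [← Nat.div_add_mod n p, pow_add, pow_mul, hζ.pow_eq_one, one_pow, one_mul]
  rw [ZMod.natCast_eq_natCast_iff']
  constructor
  · intro h
    rw [hmod a, hmod b] at h
    exact hζ.pow_inj (Nat.mod_lt _ hp) (Nat.mod_lt _ hp) h
  · intro h
    rw [hmod a, hmod b, h]

/-- `modularCyclotomicCharacter.spec` / `modularCyclotomicCharacter.toFun_spec`. -/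
theorem apply_eq_pow_cycloExp (ζ : Lb) (hζ : ζ ^ p = 1) (σ : Gb) :
    σ ζ = ζ ^ cycloExp p σ := by
  have : NeZero p := ⟨(Fact.out : p.Prime).ne_zero⟩
  have h := modularCyclotomicCharacter.spec (L := Lb) (card_rootsOfUnity_eq_self p)
    (σ : Lb ≃+* Lb) (t := (rootsOfUnity.mkOfPowEq ζ hζ : Lbˣ)) (rootsOfUnity.mkOfPowEq ζ hζ).2
  simpa [cycloExp] using h

theorem cycloExp_cast_eq_of_apply (ζ : Lb) (hζ : IsPrimitiveRoot ζ p) (σ : Gb) (t : ℕ)
    (h : σ ζ = ζ ^ t) : (cycloExp p σ : ZMod p) = (t : ZMod p) := by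
  rw [apply_eq_pow_cycloExp ζ hζ.pow_eq_one σ] at h
  exact (V3.pow_eq_pow_iff hζ _ _).mp h

theorem cycloExp_cast_eq_one_iff (ζ : Lb) (hζ : IsPrimitiveRoot ζ p) (σ : Gb) :
    (cycloExp p σ : ZMod p) = 1 ↔ σ ζ = ζ := by
  constructor
  · intro h
    have h1 : (cycloExp p σ : ZMod p) = ((1 : ℕ) : ZMod p) := by rw [h, Nat.cast_one]
    have h2 := (V3.pow_eq_pow_iff hζ _ _).mpr h1
    rw [apply_eq_pow_cycloExp ζ hζ.pow_eq_one σ, h2, pow_one]
  · intro h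
    have := cycloExp_cast_eq_of_apply ζ hζ σ 1 (by rw [h, pow_one])
    rw [this, Nat.cast_one]

/-- via `ExtCitation.cycloChar` and `ExtCitation.coe_cycloChar`. -/
theorem cycloExp_cast_mul (σ τ : Gb) :
    (cycloExp p (σ * τ) : ZMod p) = (cycloExp p σ : ZMod p) * (cycloExp p τ : ZMod p) := by
  rw [← coe_cycloChar, ← coe_cycloChar, ← coe_cycloChar, map_mul, Units.val_mul]

theorem cycloExp_cast_ne_zero (σ : Gb) : (cycloExp p σ : ZMod p) ≠ 0 := by
  rw [← coe_cycloChar]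
  exact (cycloChar p σ).ne_zero

theorem exists_primitiveRoot_Lb : ∃ ζ : Lb, IsPrimitiveRoot ζ p := by
  have : NeZero p := ⟨(Fact.out : p.Prime).ne_zero⟩
  have : NeZero (p : Lb) := ⟨Nat.cast_ne_zero.mpr (NeZero.ne p)⟩
  exact HasEnoughRootsOfUnity.exists_primitiveRoot Lb p

/-- `ζ_p ∉ ℚ` for `p ≥ 3`, so some `δ` moves it (`ℚ̄/ℚ` is Galois). -/
theorem exists_cycloExp_cast_ne_one (h3 : 3 ≤ p) : ∃ δ : Gb, (cycloExp p δ : ZMod p) ≠ 1 := by
  have hp : p.Prime := Fact.out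
  obtain ⟨ζ, hζ⟩ := exists_primitiveRoot_Lb (p := p)
  by_contra hall
  push Not at hall
  have hfix : ∀ σ : Gb, σ ζ = ζ := fun σ => (cycloExp_cast_eq_one_iff ζ hζ σ).mp (hall σ)
  have hA1 : Algebra.IsAlgebraic ℚ Lb := AlgebraicClosure.isAlgebraic ℚ
  have hA2 : IsAlgClosure ℚ Lb := ⟨inferInstance, hA1⟩
  have hA3 : IsGalois ℚ Lb := {}
  obtain ⟨r, hr⟩ := (InfiniteGalois.mem_range_algebraMap_iff_fixed ζ).2 hfix
  have hodd : Odd p := hp.odd_of_ne_two (by omega)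
  have hrp : r ^ p = 1 := by
    apply (algebraMap ℚ Lb).injective
    rw [map_pow, hr, hζ.pow_eq_one, map_one]
  have hr1 : r = 1 := by
    apply hodd.strictMono_pow.injective
    simp only [hrp, one_pow]
  rw [hr1, map_one] at hr
  rw [← hr] at hζ
  have := hζ.eq_orderOf
  rw [orderOf_one] at this
  omega

end Fermat.Agent.S14.TR
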