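import Mathlib
import Fermat.Prelude.Def_ExtCitation_AdmissibleExtension_v2
import Fermat.Agent.S14.TR.V0Frame
import Fermat.Agent.S14.TR.V3Cyclo

/-!
# S14/TR, task V1: if `G_K = ker ω` acts trivially on `V`, the extension splits (Maschke by hand)
-/

set_option autoImplicit false

namespace Fermat.Agent.S14.TR

open ExtCitation

local notation "Gb" => (AlgebraicClosure ℚ ≃ₐ[ℚ] AlgebraicClosure ℚ)

/-- Sketch.  Take a frame `(e, v₀, b)` (`exists_frame`) and `δ` with `ω δ ≠ 1`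
(`exists_cycloExp_cast_ne_one`).  Put `x := b δ / (ω δ - 1)`, `v₁ := v₀ + x • e`; then
`δ • v₁ = ω δ • v₁`.  `C' := span {v₁}` is a complement of `C = span {e}`.
Stability: for `τ`, `τ • v₁ = ω τ • v₁ + b' • e`.  The commutator `τ⁻¹ δ⁻¹ τ δ` has `ω = 1`
(`cycloExp_cast_mul`; or use `ExtCitation.cycloChar`, a hom to a commutative group), so acts trivially:
`τ • δ • v₁ = δ • τ • v₁`, i.e. `ω δ • (ω τ • v₁ + b' • e) = ω τ • ω δ • v₁ + b' • e`, whence
`(ω δ - 1) b' = 0` and `b' = 0`. -/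
theorem splits_of_trivial {p : ℕ} [Fact p.Prime] (h3 : 3 ≤ p)
    (V : Type) [AddCommGroup V] [Module (ZMod p) V]
    [DistribMulAction Gb V] [SMulCommClass Gb (ZMod p) V] (C : Submodule (ZMod p) V)
    (h : IsAdmissibleExtension p V C)
    (htriv : ∀ σ : Gb, (cycloExp p σ : ZMod p) = 1 → ∀ x : V, σ • x = x) :
    SplitsGlobally C := by
  obtain ⟨e, v₀, b, hC, hindep, hspan, hfix, hact⟩ := exists_frame V C h
  obtain ⟨δ, hδ⟩ := exists_cycloExp_cast_ne_one (p := p) h3
  have hδ' : (cycloExp p δ : ZMod p) - 1 ≠ 0 := sub_ne_zero.mpr hδ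
  set x : ZMod p := b δ / ((cycloExp p δ : ZMod p) - 1) with hx
  obtain ⟨v₁, hv₁⟩ : ∃ v₁ : V, v₁ = v₀ + x • e := ⟨_, rfl⟩
  -- action on `v₁`
  have hact₁ : ∀ τ : Gb, τ • v₁ =
      (cycloExp p τ : ZMod p) • v₁ + (b τ + x - (cycloExp p τ : ZMod p) * x) • e := by
    intro τ
    rw [hv₁, smul_add, hact τ, smul_comm τ x e, hfix τ, smul_add, smul_smul, sub_smul, add_smul]
    abel
  have hδv : δ • v₁ = (cycloExp p δ : ZMod p) • v₁ := by
    rw [hact₁ δ]
    have : b δ + x - (cycloExp p δ : ZMod p) * x = 0 := by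
      rw [hx]; field_simp; ring
    rw [this, zero_smul, add_zero]
  have he : ∀ a : ZMod p, a • e = 0 → a = 0 := by
    intro a ha
    exact (hindep 0 a (by rw [zero_smul, zero_add, ha])).2
  -- commutation
  have hcomm : ∀ (τ : Gb) (y : V), τ • δ • y = δ • τ • y := by
    intro τ y
    have hc : (cycloExp p ((δ * τ)⁻¹ * (τ * δ)) : ZMod p) = 1 := by
      have h1 : (cycloExp p ((δ * τ) * ((δ * τ)⁻¹ * (τ * δ))) : ZMod p) =
          (cycloExp p (τ * δ) : ZMod p) := by
        rw [mul_inv_cancel_left]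
      rw [cycloExp_cast_mul, cycloExp_cast_mul δ τ, cycloExp_cast_mul τ δ] at h1
      have h2 : (cycloExp p δ : ZMod p) * (cycloExp p τ : ZMod p) ≠ 0 :=
        mul_ne_zero (cycloExp_cast_ne_zero δ) (cycloExp_cast_ne_zero τ)
      apply mul_left_cancel₀ h2
      rw [h1]; ring
    have h2 := htriv _ hc y
    have h3 : (δ * τ) • (((δ * τ)⁻¹ * (τ * δ)) • y) = (δ * τ) • y := by rw [h2]
    rw [← mul_smul, mul_inv_cancel_left, mul_smul, mul_smul] at h3
    exact h3
  have hstab : ∀ τ : Gb, τ • v₁ = (cycloExp p τ : ZMod p) • v₁ := by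
    intro τ
    have h1 := hcomm τ v₁
    have h0 := hact₁ τ
    obtain ⟨b', hb'⟩ : ∃ b' : ZMod p, b' = b τ + x - (cycloExp p τ : ZMod p) * x := ⟨_, rfl⟩
    rw [← hb'] at h0
    rw [hδv, smul_comm τ _ v₁, h0, smul_add, smul_add, smul_comm δ _ v₁, hδv,
      smul_comm δ b' e, hfix δ, smul_smul, smul_smul, smul_smul, mul_comm] at h1
    have h2 : (((cycloExp p δ : ZMod p) - 1) * b') • e = 0 := by
      have h3 := add_left_cancel h1
      rw [sub_mul, one_mul, sub_smul, h3, sub_self]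
    have h4 : b' = 0 := by
      rcases mul_eq_zero.mp (he _ h2) with h5 | h5
      · exact absurd h5 hδ'
      · exact h5
    rw [h0, h4, zero_smul, add_zero]
  refine ⟨Submodule.span (ZMod p) {v₁}, ?_, ?_⟩
  · intro σ y hy
    obtain ⟨a, rfl⟩ := Submodule.mem_span_singleton.mp hy
    rw [smul_comm σ a v₁, hstab σ, smul_smul]
    exact Submodule.smul_mem _ _ (Submodule.mem_span_singleton_self v₁)
  · constructor
    · rw [Submodule.disjoint_def]
      intro y hyC hyC'
      obtain ⟨a, ha⟩ := (hC y).mp hyC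
      obtain ⟨c, rfl⟩ := Submodule.mem_span_singleton.mp hyC'
      have h1 : c • v₀ + (c * x - a) • e = 0 := by
        rw [hv₁, smul_add, smul_smul] at ha
        rw [sub_smul, ← add_sub_assoc, ha, sub_self]
      rw [(hindep _ _ h1).1, zero_smul]
    · rw [codisjoint_iff, eq_top_iff]
      intro y _
      obtain ⟨a, a', rfl⟩ := hspan y
      have h1 : a • v₀ + a' • e = (a' - a * x) • e + a • v₁ := by
        rw [hv₁, smul_add, smul_smul, sub_smul]
        abel
      rw [h1]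
      exact Submodule.add_mem_sup ((hC _).mpr ⟨_, rfl⟩)
        (Submodule.smul_mem _ _ (Submodule.mem_span_singleton_self v₁))

end Fermat.Agent.S14.TR
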