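import Mathlib

/-!
# S14/TR, task V2: Kummer generator attached to a homomorphism `c : G_K → ℤ/p` with open kernel
-/

set_option autoImplicit false

namespace Fermat.Agent.S14.TR

local notation "Lb" => AlgebraicClosure ℚ
local notation "Gb" => (AlgebraicClosure ℚ ≃ₐ[ℚ] AlgebraicClosure ℚ)

namespace V2

/-- `x ↦ ζ ^ x.val` is additive-to-multiplicative on `ZMod p`. -/
theorem chi_add {p : ℕ} [NeZero p] {L : Type*} [Field L] {ζ : L} (hζ : ζ ^ p = 1) (x y : ZMod p) :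
    ζ ^ (x + y).val = ζ ^ x.val * ζ ^ y.val := by
  rw [ZMod.val_add, ← pow_add]
  conv_rhs => rw [← Nat.div_add_mod (x.val + y.val) p, pow_add, pow_mul, hζ, one_pow, one_mul]

end V2

/-- **Lagrange resolvent / Hilbert 90.**
`G_K := {σ | σ ζ = ζ}`; `c` is additive on `G_K` and vanishes on an open subgroup.
Then there is `β ≠ 0` with `σ β = ζ ^ c(σ) β` for all `σ ∈ G_K`. -/
theorem exists_kummer {p : ℕ} [Fact p.Prime] (ζ : Lb) (hζ : IsPrimitiveRoot ζ p)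
    (c : Gb → ZMod p)
    (hadd : ∀ σ τ : Gb, σ ζ = ζ → τ ζ = ζ → c (σ * τ) = c σ + c τ)
    (hopen : ∃ U : Subgroup Gb, IsOpen (U : Set Gb) ∧ ∀ σ ∈ U, c σ = 0) :
    ∃ β : Lb, β ≠ 0 ∧ ∀ σ : Gb, σ ζ = ζ → σ β = ζ ^ (c σ).val * β := by
  classical
  have hA1 : Algebra.IsAlgebraic ℚ Lb := AlgebraicClosure.isAlgebraic ℚ
  have hA2 : IsAlgClosure ℚ Lb := ⟨inferInstance, hA1⟩
  have hA3 : IsGalois ℚ Lb := {}
  have hp : p.Prime := Fact.out
  have hζp : ζ ^ p = 1 := hζ.pow_eq_one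
  have hζ0 : ζ ≠ 0 := hζ.ne_zero hp.ne_zero
  have hc1 : c 1 = 0 := by
    have := hadd 1 1 rfl rfl
    simpa using this
  have hinv : ∀ σ : Gb, σ ζ = ζ → σ⁻¹ ζ = ζ := by
    intro σ hσ
    have : σ⁻¹ (σ ζ) = ζ := by
      rw [← AlgEquiv.mul_apply, inv_mul_cancel, AlgEquiv.one_apply]
    rwa [hσ] at this
  have hmul : ∀ σ τ : Gb, σ ζ = ζ → τ ζ = ζ → (σ * τ) ζ = ζ := by
    intro σ τ hσ hτ
    rw [AlgEquiv.mul_apply, hτ, hσ]
  have hcinv : ∀ σ : Gb, σ ζ = ζ → c σ⁻¹ = - c σ := by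
    intro σ hσ
    have := hadd σ σ⁻¹ hσ (hinv σ hσ)
    rw [mul_inv_cancel, hc1] at this
    exact (neg_eq_of_add_eq_zero_right this.symm).symm
  have hpow : ∀ σ : Gb, σ ζ = ζ → ∀ n : ℕ, (σ ^ n) ζ = ζ ∧ c (σ ^ n) = n * c σ := by
    intro σ hσ n
    induction n with
    | zero => simp [hc1]
    | succ n ih =>
      refine ⟨?_, ?_⟩
      · rw [pow_succ]; exact hmul _ _ ih.1 hσ
      · rw [pow_succ, hadd _ _ ih.1 hσ, ih.2]; push_cast; ring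
  by_cases h0 : ∀ σ : Gb, σ ζ = ζ → c σ = 0
  · exact ⟨1, one_ne_zero, fun σ hσ => by simp [h0 σ hσ]⟩
  push Not at h0
  obtain ⟨τ₀, hτ₀, hcτ₀⟩ := h0
  obtain ⟨τ, hτ, hcτ⟩ : ∃ τ : Gb, τ ζ = ζ ∧ c τ = 1 := by
    refine ⟨τ₀ ^ ((c τ₀)⁻¹).val, (hpow τ₀ hτ₀ _).1, ?_⟩
    rw [(hpow τ₀ hτ₀ _).2, ZMod.natCast_val, ZMod.cast_id', id, inv_mul_cancel₀ hcτ₀]
  -- the subgroup `H`
  let H : Subgroup Gb :=
    { carrier := {σ | σ ζ = ζ ∧ c σ = 0}
      mul_mem' := by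
        rintro σ ρ ⟨h1, h2⟩ ⟨h3, h4⟩
        exact ⟨hmul _ _ h1 h3, by rw [hadd _ _ h1 h3, h2, h4, add_zero]⟩
      one_mem' := ⟨rfl, hc1⟩
      inv_mem' := by
        rintro σ ⟨h1, h2⟩
        exact ⟨hinv _ h1, by rw [hcinv _ h1, h2, neg_zero]⟩ }
  obtain ⟨U, hU, hUc⟩ := hopen
  have hstab : IsOpen ((MulAction.stabilizer Gb ζ : Subgroup Gb) : Set Gb) :=
    stabilizer_isOpen_of_isIntegral (K := ℚ) ζ
  have hHopen : IsOpen (H : Set Gb) := by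
    refine Subgroup.isOpen_mono (H₁ := U ⊓ MulAction.stabilizer Gb ζ) ?_ ?_
    · rintro σ ⟨h1, h2⟩
      exact ⟨h2, hUc σ h1⟩
    · rw [Subgroup.coe_inf]
      exact hU.inter hstab
  have hHclosed : IsClosed (H : Set Gb) := OpenSubgroup.isClosed ⟨H, hHopen⟩
  let E : IntermediateField ℚ Lb := IntermediateField.fixedField H
  have hEfix : E.fixingSubgroup = H :=
    InfiniteGalois.fixingSubgroup_fixedField (⟨H, hHclosed⟩ : ClosedSubgroup Gb)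
  -- the characters
  let f : ZMod p → (E →* Lb) := fun x =>
    { toFun := fun θ => (τ ^ x.val) (θ : Lb)
      map_one' := by simp
      map_mul' := by intro a b; simp }
  have hfinj : Function.Injective f := by
    intro x y hxy
    have hmem : (τ ^ y.val)⁻¹ * τ ^ x.val ∈ E.fixingSubgroup := by
      rw [IntermediateField.mem_fixingSubgroup_iff]
      intro θ hθ
      have := DFunLike.congr_fun hxy (⟨θ, hθ⟩ : E)
      change (τ ^ x.val) θ = (τ ^ y.val) θ at this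
      change ((τ ^ y.val)⁻¹ * τ ^ x.val) θ = θ
      rw [AlgEquiv.mul_apply, this, ← AlgEquiv.mul_apply, inv_mul_cancel, AlgEquiv.one_apply]
    rw [hEfix] at hmem
    have h2 : c ((τ ^ y.val)⁻¹ * τ ^ x.val) = 0 := hmem.2
    rw [hadd _ _ (hinv _ (hpow τ hτ _).1) (hpow τ hτ _).1, hcinv _ (hpow τ hτ _).1,
      (hpow τ hτ _).2, (hpow τ hτ _).2, hcτ, mul_one, mul_one, ZMod.natCast_val, ZMod.natCast_val,
      ZMod.cast_id', id, id] at h2
    exact (neg_add_eq_zero.mp h2).symm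
  have hli : LinearIndependent Lb (fun x : ZMod p => ((f x : E →* Lb) : E → Lb)) :=
    (linearIndependent_monoidHom E Lb).comp f hfinj
  obtain ⟨θ, hθ⟩ : ∃ θ : E, ∑ x : ZMod p, (ζ ^ x.val)⁻¹ * f x θ ≠ 0 := by
    by_contra hall
    push Not at hall
    have hsum : ∑ x : ZMod p, (ζ ^ x.val)⁻¹ • ((f x : E →* Lb) : E → Lb) = 0 := by
      funext θ
      simpa [Finset.sum_apply] using hall θ
    have := Fintype.linearIndependent_iff.mp hli _ hsum 0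
    simp at this
  refine ⟨∑ x : ZMod p, (ζ ^ x.val)⁻¹ * f x θ, hθ, fun σ hσ => ?_⟩
  -- every element of `G_K` acts on `θ` through `c`
  have hact : ∀ ρ : Gb, ρ ζ = ζ → ρ (θ : Lb) = f (c ρ) θ := by
    intro ρ hρ
    have hmem : (τ ^ (c ρ).val)⁻¹ * ρ ∈ H := by
      refine ⟨hmul _ _ (hinv _ (hpow τ hτ _).1) hρ, ?_⟩
      rw [hadd _ _ (hinv _ (hpow τ hτ _).1) hρ, hcinv _ (hpow τ hτ _).1, (hpow τ hτ _).2, hcτ,
        mul_one, ZMod.natCast_val, ZMod.cast_id', id, neg_add_cancel]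
    have hfix : ((τ ^ (c ρ).val)⁻¹ * ρ) (θ : Lb) = θ := by
      have := θ.2
      exact this ⟨_, hmem⟩
    change ρ (θ : Lb) = (τ ^ (c ρ).val) (θ : Lb)
    conv_rhs => rw [← hfix]
    rw [← AlgEquiv.mul_apply, mul_inv_cancel_left]
  have hσf : ∀ x : ZMod p, σ (f x θ) = f (c σ + x) θ := by
    intro x
    change σ ((τ ^ x.val) (θ : Lb)) = _
    rw [← AlgEquiv.mul_apply, hact _ (hmul _ _ hσ (hpow τ hτ _).1),
      hadd _ _ hσ (hpow τ hτ _).1, (hpow τ hτ _).2, hcτ, mul_one, ZMod.natCast_val, ZMod.cast_id',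
      id]
  rw [map_sum, Finset.mul_sum]
  rw [← Equiv.sum_comp (Equiv.addLeft (c σ)) (fun x => ζ ^ (c σ).val * ((ζ ^ x.val)⁻¹ * f x θ))]
  refine Finset.sum_congr rfl fun x _ => ?_
  rw [map_mul, map_inv₀, map_pow, hσ, hσf, Equiv.coe_addLeft, V2.chi_add hζp]
  have h1 : ζ ^ (c σ).val ≠ 0 := pow_ne_zero _ hζ0
  have h2 : ζ ^ x.val ≠ 0 := pow_ne_zero _ hζ0
  field_simp

end Fermat.Agent.S14.TR
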