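import Mathlib
import Fermat.Prelude.Def_ExtCitation_AdmissibleExtension_v2
import Fermat.Agent.S14.TR.V0Frame
import Fermat.Agent.S14.TR.V1Split
import Fermat.Agent.S14.TR.V2Kummer
import Fermat.Agent.S14.TR.V3Cyclo

/-!
# S14/TR, V4: the representation side: reduction of `ExtVanishingCts p` to the field side
-/

set_option autoImplicit false
set_option linter.style.haveILetI false

namespace Fermat.Agent.S14.TR

open ExtCitation

local notation "Lb" => AlgebraicClosure ℚ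
local notation "Gb" => (AlgebraicClosure ℚ ≃ₐ[ℚ] AlgebraicClosure ℚ)

namespace V4

theorem pow_eq_pow_of_cast_eq {p : ℕ} {ζ : Lb} (hζ : IsPrimitiveRoot ζ p) {a b : ℕ}
    (h : (a : ZMod p) = (b : ZMod p)) : ζ ^ a = ζ ^ b := by
  have h1 : a ≡ b [MOD p] := (ZMod.natCast_eq_natCast_iff a b p).mp h
  rw [← Nat.div_add_mod a p, ← Nat.div_add_mod b p, pow_add, pow_add, pow_mul, pow_mul,
    hζ.pow_eq_one, one_pow, one_pow, h1]

end V4

theorem vside {p : ℕ} [Fact p.Prime] (h3 : 3 ≤ p)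
    (FS : ∀ (ζ β : Lb), IsPrimitiveRoot ζ p → β ≠ 0 →
      (∀ σ : Gb, σ ζ = ζ → ∃ k : ℕ, σ β = ζ ^ k * β) →
      (∀ (δ : Gb) (t : ℕ), δ ζ = ζ ^ t → ∀ σ : Gb, σ ζ = ζ →
        σ (δ β / β ^ (t ^ 2)) = δ β / β ^ (t ^ 2)) →
      (∀ ℓ : ℕ, ℓ.Prime → ℓ ≠ p → ∀ A : ValuationSubring Lb, A.LiesOverPrime ℓ →
        ∀ σ ∈ A.inertiaSubgroupIn ℚ, σ ζ = ζ ∧ σ β = β) →
      (∀ A : ValuationSubring Lb, A.LiesOverPrime p →
        ∀ σ ∈ A.decompositionSubgroup ℚ, σ ζ = ζ → σ β = β) →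
      ∀ σ : Gb, σ ζ = ζ → σ β = β) :
    ExtVanishingCts p := by
  intro V _ _ _ _ C hadm
  haveI : NeZero p := ⟨(Fact.out : p.Prime).ne_zero⟩
  obtain ⟨e, v₀, b, hC, hind, hspan, he, hv₀⟩ := exists_frame V C hadm.toIsAdmissibleExtension
  obtain ⟨ζ, hζ⟩ := exists_primitiveRoot_Lb (p := p)
  have hζ0 : ζ ≠ 0 := hζ.ne_zero (NeZero.ne p)
  -- uniqueness of coordinates
  have huniq : ∀ a a' c c' : ZMod p, a • v₀ + a' • e = c • v₀ + c' • e → a = c ∧ a' = c' := by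
    intro a a' c c' h
    have h0 : (a - c) • v₀ + (a' - c') • e = 0 := by
      rw [sub_smul, sub_smul]
      have : a • v₀ - c • v₀ + (a' • e - c' • e) = (a • v₀ + a' • e) - (c • v₀ + c' • e) := by abel
      rw [this, h, sub_self]
    obtain ⟨h1, h2⟩ := hind _ _ h0
    exact ⟨sub_eq_zero.mp h1, sub_eq_zero.mp h2⟩
  -- cocycle relation
  have hcoc : ∀ σ τ : Gb, b (σ * τ) = (cycloExp p τ : ZMod p) * b σ + b τ := by
    intro σ τ
    have h1 : (σ * τ) • v₀ = ((cycloExp p τ : ZMod p) * (cycloExp p σ : ZMod p)) • v₀ +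
        ((cycloExp p τ : ZMod p) * b σ + b τ) • e := by
      rw [mul_smul, hv₀ τ, smul_add, smul_comm σ, smul_comm σ, he, hv₀ σ, smul_add, smul_smul,
        smul_smul, add_smul, add_assoc]
    rw [hv₀ (σ * τ)] at h1
    exact (huniq _ _ _ _ h1).2
  -- trivial action on `v₀` forces `ω = 1`, `b = 0`
  have htrivial : ∀ σ : Gb, σ • v₀ = v₀ → (cycloExp p σ : ZMod p) = 1 ∧ b σ = 0 := by
    intro σ h
    have h1 : (cycloExp p σ : ZMod p) • v₀ + b σ • e = (1 : ZMod p) • v₀ + (0 : ZMod p) • e := by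
      rw [← hv₀ σ, h, one_smul, zero_smul, add_zero]
    exact huniq _ _ _ _ h1
  have hadd : ∀ σ τ : Gb, σ ζ = ζ → τ ζ = ζ → b (σ * τ) = b σ + b τ := by
    intro σ τ _ hτ
    rw [hcoc, (cycloExp_cast_eq_one_iff ζ hζ τ).mpr hτ, one_mul]
  let U : Subgroup Gb :=
    { carrier := {σ | ∀ v : V, σ • v = v}
      one_mem' := fun v => one_smul _ v
      mul_mem' := fun {a c} ha hc v => by rw [mul_smul, hc v, ha v]
      inv_mem' := fun {a} ha v => by rw [inv_smul_eq_iff, ha v] }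
  have hopen : ∃ U : Subgroup Gb, IsOpen (U : Set Gb) ∧ ∀ σ ∈ U, b σ = 0 :=
    ⟨U, hadm.open_kernel, fun σ hσ => (htrivial σ (hσ v₀)).2⟩
  obtain ⟨β, hβ0, hβ⟩ := exists_kummer ζ hζ b hadd hopen
  have key : ∀ σ : Gb, σ ζ = ζ → σ β = β := by
    apply FS ζ β hζ hβ0
    · intro σ hσ
      exact ⟨_, hβ σ hσ⟩
    · intro δ t hδ σ hσ
      set ρ : Gb := δ⁻¹ * σ * δ with hρ
      have hδρ : δ * ρ = σ * δ := by rw [hρ]; group
      have hρζ : ρ ζ = ζ := by
        have h1 : δ (ρ ζ) = δ ζ := by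
          rw [← AlgEquiv.mul_apply, hδρ, AlgEquiv.mul_apply, hδ, map_pow, hσ]
        exact δ.injective h1
      have hbρ : b ρ = (t : ZMod p) * b σ := by
        have h1 := hcoc δ ρ
        have h2 := hcoc σ δ
        rw [hδρ, h2, (cycloExp_cast_eq_one_iff ζ hζ ρ).mpr hρζ, one_mul,
          cycloExp_cast_eq_of_apply ζ hζ δ t hδ] at h1
        have h3 : (t : ZMod p) * b σ + b δ = b ρ + b δ := by rw [h1]; ring
        exact (add_right_cancel h3).symm
      have h1 : σ (δ β) = ζ ^ (t * (b ρ).val) * δ β := by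
        rw [← AlgEquiv.mul_apply, ← hδρ, AlgEquiv.mul_apply, hβ ρ hρζ, map_mul, map_pow, hδ,
          ← pow_mul]
      have h2 : σ (β ^ (t ^ 2)) = ζ ^ ((b σ).val * t ^ 2) * β ^ (t ^ 2) := by
        rw [map_pow, hβ σ hσ, mul_pow, ← pow_mul]
      have h3 : ζ ^ (t * (b ρ).val) = ζ ^ ((b σ).val * t ^ 2) := by
        apply V4.pow_eq_pow_of_cast_eq hζ
        push_cast
        rw [ZMod.natCast_zmod_val, ZMod.natCast_zmod_val, hbρ]
        ring
      rw [map_div₀, h1, h2, h3]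
      have hz : ζ ^ ((b σ).val * t ^ 2) ≠ 0 := pow_ne_zero _ hζ0
      rw [mul_div_mul_left _ _ hz]
    · intro ℓ hℓ hne A hA σ hσ
      have h1 := hadm.unramified_outside ℓ hℓ hne A hA σ hσ
      obtain ⟨h2, h3⟩ := htrivial σ (h1 v₀)
      have h4 : σ ζ = ζ := (cycloExp_cast_eq_one_iff ζ hζ σ).mp h2
      refine ⟨h4, ?_⟩
      rw [hβ σ h4, h3, ZMod.val_zero, pow_zero, one_mul]
    · intro A hA σ hσ hσζ
      obtain ⟨C', hstab, hcompl⟩ := hadm.locally_split A hA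
      have hb0 : b σ = 0 := by
        have htop : v₀ ∈ C ⊔ C' := by rw [hcompl.sup_eq_top]; trivial
        obtain ⟨c₁, hc₁, c₂, hc₂, hsum⟩ := Submodule.mem_sup.mp htop
        obtain ⟨a, rfl⟩ := (hC c₁).mp hc₁
        have hc₂' : c₂ = v₀ - a • e := by rw [← hsum]; abel
        have h1 : σ • c₂ = c₂ + b σ • e := by
          rw [hc₂', smul_sub, smul_comm σ, he, hv₀ σ, (cycloExp_cast_eq_one_iff ζ hζ σ).mpr hσζ,
            one_smul]
          abel
        have h2 : b σ • e ∈ C' := by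
          have h3 := C'.sub_mem (hstab σ hσ c₂ hc₂) hc₂
          rw [h1, add_sub_cancel_left] at h3
          exact h3
        have h3 : b σ • e ∈ C := (hC _).mpr ⟨_, rfl⟩
        have h4 : b σ • e = 0 := by
          have : b σ • e ∈ C ⊓ C' := ⟨h3, h2⟩
          rw [hcompl.inf_eq_bot] at this
          exact (Submodule.mem_bot _).mp this
        have h5 : (0 : ZMod p) • v₀ + b σ • e = 0 := by rw [zero_smul, zero_add, h4]
        exact (hind _ _ h5).2
      rw [hβ σ hσζ, hb0, ZMod.val_zero, pow_zero, one_mul]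
  apply splits_of_trivial h3 V C hadm.toIsAdmissibleExtension
  intro σ hσ x
  have hσζ : σ ζ = ζ := (cycloExp_cast_eq_one_iff ζ hζ σ).mp hσ
  have hb0 : b σ = 0 := by
    have h1 := key σ hσζ
    rw [hβ σ hσζ] at h1
    have h2 : ζ ^ (b σ).val = 1 := by
      have := mul_right_cancel₀ hβ0 (h1.trans (one_mul β).symm)
      exact this
    have h3 : p ∣ (b σ).val := (hζ.pow_eq_one_iff_dvd _).mp h2
    have h4 : (b σ).val = 0 := Nat.eq_zero_of_dvd_of_lt h3 (ZMod.val_lt _)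
    exact (ZMod.val_eq_zero _).mp h4
  obtain ⟨a, a', rfl⟩ := hspan x
  rw [smul_add, smul_comm σ, smul_comm σ, he, hv₀ σ, hσ, hb0, one_smul, zero_smul, add_zero]

end Fermat.Agent.S14.TR
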